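import Mathlib
import Fermat.Prelude.Def_ModularCurve_LaurentCoeff
import Fermat.Prelude.Def_ModularCurve_X0

set_option autoImplicit false

open UpperHalfPlane Complex Function

noncomputable section

namespace Fermat.Agent.X0Emb

local notation "𝕢" => Periodic.qParam

/-- `LExp h f G`: the function `f` on the upper half plane is given by the
(everywhere convergent) Laurent expansion `G` in the parameter `exp (2 π i τ / h)`. -/
def LExp (h : ℝ) (f : ℍ → ℂ) (G : LaurentSeries ℂ) : Prop :=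
  ∀ τ : ℍ, HasSum (fun n : ℤ ↦ G.coeff n * 𝕢 h τ ^ n) (f τ)

variable {h : ℝ} {f g : ℍ → ℂ} {F G : LaurentSeries ℂ}

theorem qParam_ne (h : ℝ) (z : ℂ) : 𝕢 h z ≠ 0 := Complex.exp_ne_zero _

theorem LExp.funext (hf : LExp h f G) (hg : LExp h g G) : f = g :=
  _root_.funext fun τ ↦ (hf τ).unique (hg τ)

theorem LExp.add (hf : LExp h f F) (hg : LExp h g G) : LExp h (f + g) (F + G) := by
  intro τ
  have := (hf τ).add (hg τ)
  simpa [add_mul] using this

theorem LExp.neg (hf : LExp h f F) : LExp h (-f) (-F) := by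
  intro τ
  have := (hf τ).neg
  simpa using this

theorem LExp.sub (hf : LExp h f F) (hg : LExp h g G) : LExp h (f - g) (F - G) := by
  intro τ
  have := (hf τ).sub (hg τ)
  simpa [sub_mul] using this

theorem LExp.single (h : ℝ) (m : ℤ) (c : ℂ) :
    LExp h (fun τ ↦ c * 𝕢 h τ ^ m) (HahnSeries.single m c) := by
  intro τ
  have h1 := hasSum_ite_eq (L := .unconditional ℤ) m (c * 𝕢 h τ ^ m)
  convert! h1 using 2 with n
  by_cases hn : n = m
  · subst hn; simp
  · simp [HahnSeries.coeff_single_of_ne hn, hn]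

theorem LExp.const (h : ℝ) (c : ℂ) : LExp h (fun _ ↦ c) (HahnSeries.C c) := by
  have := LExp.single h 0 c
  simpa using this

theorem LExp.zero (h : ℝ) : LExp h 0 0 := by
  intro τ
  simp [hasSum_zero]

theorem LExp.one (h : ℝ) : LExp h 1 1 := by
  simpa using! LExp.const h 1

theorem hasSum_coeff_mul (F G : LaurentSeries ℂ) (n : ℤ) :
    HasSum (fun i : ℤ ↦ F.coeff i * G.coeff (n - i)) ((F * G).coeff n) := by
  classical
  have h3 : (F * G).coeff n = ∑ i ∈ (Finset.antidiagonal F.isPWO_support G.isPWO_support n).image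
      Prod.fst, F.coeff i * G.coeff (n - i) := by
    rw [HahnSeries.coeff_mul, Finset.sum_image]
    · refine Finset.sum_congr rfl fun ij hij ↦ ?_
      rw [Finset.mem_antidiagonal] at hij
      rw [← hij.2.2]; simp
    · intro a ha b hb hab
      rw [Finset.mem_coe, Finset.mem_antidiagonal] at ha hb
      ext
      · exact hab
      · have := ha.2.2; have := hb.2.2; omega
  rw [h3]
  refine hasSum_sum_of_ne_finset_zero fun i hi ↦ ?_
  by_contra hne
  apply hi
  rw [Finset.mem_image]
  refine ⟨(i, n - i), ?_, rfl⟩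
  rw [Finset.mem_antidiagonal]
  refine ⟨?_, ?_, ?_⟩
  · exact fun h0 ↦ hne (by rw [h0, zero_mul])
  · exact fun h0 ↦ hne (by rw [h0, mul_zero])
  · simp


theorem hasSum_reindex {a b : ℤ → ℂ} {A B : ℂ} (ha : HasSum a A) (hb : HasSum b B)
    {c : ℤ → ℂ} (hc : ∀ n, HasSum (fun i ↦ a i * b (n - i)) (c n)) : HasSum c (A * B) := by
  have h1 := ha.mul hb (summable_mul_of_summable_norm ha.summable.norm hb.summable.norm)
  let e : ℤ × ℤ ≃ ℤ × ℤ :=
    { toFun := fun p ↦ (p.2, p.1 - p.2)
      invFun := fun p ↦ (p.1 + p.2, p.1)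
      left_inv := fun p ↦ by simp
      right_inv := fun p ↦ by simp }
  have h2 := (e.hasSum_iff).mpr h1
  exact HasSum.prod_fiberwise h2 hc

theorem zpow_aux {x : ℂ} (hx0 : x ≠ 0) (a b : ℂ) (i n : ℤ) :
    a * x ^ i * (b * x ^ (n - i)) = a * b * x ^ n := by
  have h5 : x ^ n = x ^ i * x ^ (n - i) := by
    rw [← zpow_add₀ hx0]; congr 1; ring
  rw [h5]; ring

theorem LExp.mul (hf : LExp h f F) (hg : LExp h g G) : LExp h (f * g) (F * G) := by
  intro τ
  refine hasSum_reindex (hf τ) (hg τ) fun n ↦ ?_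
  have h6 := (hasSum_coeff_mul F G n).mul_right (𝕢 h τ ^ n)
  simpa only [zpow_aux (qParam_ne h τ)] using h6


theorem cuspFunction_zero' (h : ℝ) : cuspFunction h 0 = 0 := by
  ext q
  simp only [cuspFunction]
  by_cases hq : q = 0
  · subst hq
    simp only [Periodic.cuspFunction, Function.update_self, Pi.zero_apply]
    refine Filter.Tendsto.limUnder_eq ?_
    refine (tendsto_const_nhds (x := (0 : ℂ))).congr fun x ↦ ?_
    simp
  · rw [Periodic.cuspFunction_eq_of_nonzero h _ hq]
    simp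

theorem LExp.hasSum_nat (hf : LExp h f G) {m : ℤ} (hm : ∀ n < m, G.coeff n = 0) (τ : ℍ) :
    HasSum (fun k : ℕ ↦ G.coeff (m + k) • 𝕢 h τ ^ k) (𝕢 h τ ^ (-m) * f τ) := by
  have hx0 : 𝕢 h τ ≠ 0 := qParam_ne h τ
  have h1 := (hf τ).mul_left (𝕢 h τ ^ (-m))
  have hinj : Function.Injective (fun k : ℕ ↦ m + (k : ℤ)) := fun a b hab ↦ by
    simpa using hab
  rw [← hinj.hasSum_iff] at h1
  · convert! h1 using 2 with k
    simp only [Function.comp, smul_eq_mul]
    rw [zpow_add₀ hx0, zpow_neg, zpow_natCast]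
    field_simp
  · intro n hn
    rw [hm n, zero_mul, mul_zero]
    by_contra hlt
    rw [not_lt] at hlt
    exact hn ⟨(n - m).toNat, by simp; omega⟩

theorem LExp.eq_zero (hh : 0 < h) (hf : LExp h 0 G) : G = 0 := by
  by_contra hG
  have hm : ∀ n < G.order, G.coeff n = 0 := fun n hn ↦ HahnSeries.coeff_eq_zero_of_lt_order hn
  have h1 := hasFPowerSeriesOnBall_cuspFunction (f := 0) (c := fun k ↦ G.coeff (G.order + k)) hh
    (by rw [cuspFunction_zero']; exact analyticAt_const) (fun τ ↦ by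
      simpa using hf.hasSum_nat hm τ)
  rw [cuspFunction_zero'] at h1
  have h2 := h1.hasFPowerSeriesAt.eq_zero
  have h3 := congrArg (fun p ↦ FormalMultilinearSeries.coeff p 0) h2
  have h4 : FormalMultilinearSeries.coeff (0 : FormalMultilinearSeries ℂ ℂ ℂ) 0 = 0 := by
    simp [FormalMultilinearSeries.coeff]
  simp [FormalMultilinearSeries.coeff_ofScalars, h4] at h3
  exact hG h3

theorem LExp.unique (hh : 0 < h) (hF : LExp h f F) (hG : LExp h f G) : F = G := by
  have := hF.sub hG
  rw [sub_self] at this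
  exact sub_eq_zero.mp (this.eq_zero hh)


section Twist

variable {R : Type*} [CommRing R]

/-- multiply the `n`-th coefficient by `c ^ n` -/
def twist (c : Rˣ) : LaurentSeries R →+* LaurentSeries R where
  toFun G :=
    { coeff := fun n ↦ ((c ^ n : Rˣ) : R) * G.coeff n
      isPWO_support' := G.isPWO_support.mono fun n hn ↦ by
        rw [Function.mem_support] at hn
        exact fun h0 ↦ hn (by rw [h0, mul_zero]) }
  map_zero' := by ext n; simp
  map_one' := by
    ext n
    by_cases hn : n = 0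
    · subst hn; simp
    · simp [HahnSeries.coeff_one, hn]
  map_add' F G := by ext n; simp [mul_add]
  map_mul' F G := by
    ext n
    have hs : ∀ H : LaurentSeries R, ∀ m : ℤ, ((c ^ m : Rˣ) : R) * H.coeff m ≠ 0 ↔ H.coeff m ≠ 0 := by
      intro H m
      rw [not_iff_not, Units.mul_right_eq_zero]
    rw [HahnSeries.coeff_mul]
    dsimp only
    rw [HahnSeries.coeff_mul, Finset.mul_sum]
    refine Finset.sum_congr ?_ fun ij hij ↦ ?_
    · ext ij
      simp only [Finset.mem_antidiagonal, HahnSeries.mem_support, hs]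
    · rw [Finset.mem_antidiagonal] at hij
      rw [← hij.2.2, zpow_add, Units.val_mul]
      ring

@[simp]
theorem twist_coeff (c : Rˣ) (G : LaurentSeries R) (n : ℤ) :
    (twist c G).coeff n = ((c ^ n : Rˣ) : R) * G.coeff n := rfl

theorem twist_coeffMap {S : Type*} [CommRing S] (φ : R →+* S) (c : Rˣ) (G : LaurentSeries R) :
    ModularCurve.coeffMap φ (twist c G) = twist (Units.map φ c) (ModularCurve.coeffMap φ G) := by
  ext n
  simp [← map_zpow]

end Twist


/-- the affine map `τ ↦ (a τ + b) / d` of the upper half plane. -/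
def aff (a b d : ℕ) [NeZero a] [NeZero d] (τ : ℍ) : ℍ :=
  ⟨((a : ℂ) * τ + b) / d, by
    have ha : (0 : ℝ) < a := by exact_mod_cast Nat.pos_of_ne_zero (NeZero.ne a)
    have hd : (0 : ℝ) < d := by exact_mod_cast Nat.pos_of_ne_zero (NeZero.ne d)
    have : (((a : ℂ) * τ + b) / d).im = a * τ.im / d := by
      rw [Complex.div_natCast_im]; simp
    rw [this]
    exact div_pos (mul_pos ha τ.im_pos) hd⟩

@[simp]
theorem coe_aff (a b d : ℕ) [NeZero a] [NeZero d] (τ : ℍ) :
    ((aff a b d τ : ℍ) : ℂ) = ((a : ℂ) * τ + b) / d := rfl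

/-- `exp (2 π i b / d)` as a unit of `ℂ`. -/
def zetaU (b d : ℕ) : ℂˣ := Units.mk0 (Complex.exp (2 * Real.pi * Complex.I * b / d)) (Complex.exp_ne_zero _)

theorem LExp.aff {f : ℍ → ℂ} {G : LaurentSeries ℂ} (hf : LExp 1 f G) (a b d e N : ℕ)
    [NeZero a] [NeZero d] [NeZero e] [NeZero N] (hed : e * d = a * N) :
    LExp N (fun τ ↦ f (aff a b d τ)) (ModularCurve.qExpand ℂ e (twist (zetaU b d) G)) := by
  intro τ
  have hd : (d : ℂ) ≠ 0 := by exact_mod_cast NeZero.ne d
  have hN : (N : ℂ) ≠ 0 := by exact_mod_cast NeZero.ne N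
  have h1 := hf (X0Emb.aff a b d τ)
  have hinj : Function.Injective (fun n : ℤ ↦ (e : ℤ) * n) :=
    mul_right_injective₀ (by exact_mod_cast NeZero.ne e)
  have hq : 𝕢 1 (X0Emb.aff a b d τ) = (zetaU b d : ℂ) * 𝕢 N τ ^ (e : ℤ) := by
    rw [zpow_natCast, Periodic.qParam, Periodic.qParam, ← Complex.exp_nat_mul, zetaU, Units.val_mk0,
      ← Complex.exp_add]
    congr 1
    have he : (e : ℂ) * d = a * N := by exact_mod_cast hed
    simp only [coe_aff, ofReal_one, div_one, ofReal_natCast]
    field_simp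
    linear_combination (-(τ : ℂ)) * he
  rw [← hinj.hasSum_iff]
  · convert! h1 using 2 with n
    simp only [Function.comp, ModularCurve.qExpand_coeff_mul, twist_coeff]
    rw [hq, mul_zpow, ← zpow_mul, Units.val_zpow_eq_zpow_val]
    ring
  · intro n hn
    rw [ModularCurve.qExpand_coeff_of_not_dvd, zero_mul]
    rintro ⟨m, rfl⟩
    exact hn ⟨m, rfl⟩

end Fermat.Agent.X0Emb
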