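import Mathlib
import Fermat.Agent.X0Emb.LExp

/-!
# Hermite normal forms and the maps `τ ↦ (aτ + b) / d`
-/

set_option autoImplicit false

open UpperHalfPlane Complex CongruenceSubgroup
open scoped MatrixGroups

noncomputable section

namespace Fermat.Agent.X0Emb

theorem coe_sl_smul (g : SL(2, ℤ)) (τ : ℍ) :
    ((g • τ : ℍ) : ℂ) = ((g 0 0 : ℂ) * τ + (g 0 1 : ℂ)) / ((g 1 0 : ℂ) * τ + (g 1 1 : ℂ)) := by
  rw [coe_specialLinearGroup_apply]
  simp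

theorem sl_denom_ne_zero (g : SL(2, ℤ)) (τ : ℍ) : (g 1 0 : ℂ) * τ + (g 1 1 : ℂ) ≠ 0 := by
  have h := denom_ne_zero (g : GL (Fin 2) ℝ) τ
  simpa [denom] using h

theorem sl_det (g : SL(2, ℤ)) : g 0 0 * g 1 1 - g 0 1 * g 1 0 = 1 := by
  have := g.det_coe
  rwa [Matrix.det_fin_two] at this

/-- The basic criterion for `(a₁ b₁; 0 d₁) g = g' (a₂ b₂; 0 d₂)` as maps of the upper half plane. -/
theorem aff_smul_eq (a₁ b₁ d₁ a₂ b₂ d₂ : ℕ) [NeZero a₁] [NeZero d₁] [NeZero a₂] [NeZero d₂]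
    (g g' : SL(2, ℤ)) (h00 : a₁ * g 0 0 + b₁ * g 1 0 = g' 0 0 * a₂)
    (h01 : a₁ * g 0 1 + b₁ * g 1 1 = g' 0 0 * b₂ + g' 0 1 * d₂)
    (h10 : d₁ * g 1 0 = g' 1 0 * a₂) (h11 : d₁ * g 1 1 = g' 1 0 * b₂ + g' 1 1 * d₂) (τ : ℍ) :
    aff a₁ b₁ d₁ (g • τ) = g' • aff a₂ b₂ d₂ τ := by
  have hd₁ : (d₁ : ℂ) ≠ 0 := by exact_mod_cast NeZero.ne d₁
  have hd₂ : (d₂ : ℂ) ≠ 0 := by exact_mod_cast NeZero.ne d₂
  have e00 : (a₁ : ℂ) * g 0 0 + b₁ * g 1 0 = g' 0 0 * a₂ := by exact_mod_cast h00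
  have e01 : (a₁ : ℂ) * g 0 1 + b₁ * g 1 1 = g' 0 0 * b₂ + g' 0 1 * d₂ := by exact_mod_cast h01
  have e10 : (d₁ : ℂ) * g 1 0 = g' 1 0 * a₂ := by exact_mod_cast h10
  have e11 : (d₁ : ℂ) * g 1 1 = g' 1 0 * b₂ + g' 1 1 * d₂ := by exact_mod_cast h11
  have hg := sl_denom_ne_zero g τ
  have hg' := sl_denom_ne_zero g' (aff a₂ b₂ d₂ τ)
  ext
  rw [coe_sl_smul, coe_aff, coe_sl_smul]
  rw [coe_aff] at hg' ⊢
  have hnum : (a₁ : ℂ) * (g 0 0 * (τ : ℂ) + g 0 1) + b₁ * (g 1 0 * (τ : ℂ) + g 1 1) =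
      g' 0 0 * (a₂ * (τ : ℂ) + b₂) + g' 0 1 * d₂ := by
    linear_combination (τ : ℂ) * e00 + e01
  have hden : (d₁ : ℂ) * (g 1 0 * (τ : ℂ) + g 1 1) =
      g' 1 0 * (a₂ * (τ : ℂ) + b₂) + g' 1 1 * d₂ := by
    linear_combination (τ : ℂ) * e10 + e11
  set Y : ℂ := g 1 0 * (τ : ℂ) + g 1 1 with hY
  set X : ℂ := g 0 0 * (τ : ℂ) + g 0 1 with hX
  set W : ℂ := a₂ * (τ : ℂ) + b₂ with hW
  have hden0 : (g' 1 0 : ℂ) * W + g' 1 1 * d₂ ≠ 0 := by
    rw [← hden]; exact mul_ne_zero hd₁ hg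
  have h1 : ((a₁ : ℂ) * (X / Y) + b₁) / d₁ = (a₁ * X + b₁ * Y) / (d₁ * Y) := by
    field_simp
  have h2 : ((g' 0 0 : ℂ) * (W / d₂) + g' 0 1) / ((g' 1 0 : ℂ) * (W / d₂) + g' 1 1) =
      (g' 0 0 * W + g' 0 1 * d₂) / (g' 1 0 * W + g' 1 1 * d₂) := by
    rw [div_eq_div_iff hg' hden0]
    field_simp
  rw [h1, h2, hnum, hden]

/-- (G1) Hermite decomposition. -/
theorem exists_hermite (d : ℕ) [NeZero d] (g : SL(2, ℤ)) :
    ∃ (a b d' : ℕ) (_ : NeZero a) (_ : NeZero d') (g' : SL(2, ℤ)), a * d' = d ∧ b < d' ∧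
      ∀ τ : ℍ, aff d 0 1 (g • τ) = g' • aff a b d' τ := by
  have hd0 : (d : ℤ) ≠ 0 := by exact_mod_cast NeZero.ne d
  have hdet := sl_det g
  set a : ℕ := Int.gcd (d * g 0 0) (g 1 0) with ha
  have hcol : g 0 0 ≠ 0 ∨ g 1 0 ≠ 0 := by
    by_contra h
    push Not at h
    rw [h.1, h.2] at hdet
    simp at hdet
  have ha0 : a ≠ 0 := by
    rw [ha, Ne, Int.gcd_eq_zero_iff]
    rintro ⟨h1, h2⟩
    rcases hcol with h | h
    · exact h ((mul_eq_zero.mp h1).resolve_left hd0)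
    · exact h h2
  have haZ : (a : ℤ) ≠ 0 := by exact_mod_cast ha0
  obtain ⟨x, hx⟩ : (a : ℤ) ∣ d * g 0 0 := Int.gcd_dvd_left _ _
  obtain ⟨z, hz⟩ : (a : ℤ) ∣ g 1 0 := Int.gcd_dvd_right _ _
  have hxz : IsCoprime x z := by
    rw [Int.isCoprime_iff_gcd_eq_one]
    have h1 : Int.gcd (d * g 0 0) (g 1 0) = a * Int.gcd x z := by
      rw [hx, hz, Int.gcd_mul_left, Int.natAbs_natCast]
    rw [← ha] at h1
    have h2 : a * Int.gcd x z = a * 1 := by rw [← h1, mul_one]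
    exact Nat.eq_of_mul_eq_mul_left (Nat.pos_of_ne_zero ha0) h2
  obtain ⟨g₀, hg0⟩ := hxz.exists_SL2_col 0
  obtain ⟨hg00, hg10⟩ := hg0
  have hdet0 := sl_det g₀
  rw [hg00, hg10] at hdet0
  -- `d' = g₀⁻¹ M` lower right entry
  set y := g₀ 0 1 with hy
  set w := g₀ 1 1 with hw
  set D : ℤ := x * g 1 1 - z * (d * g 0 1) with hD
  set B : ℤ := w * (d * g 0 1) - y * g 1 1 with hB
  have haD : (a : ℤ) * D = d := by
    rw [hD]
    linear_combination (-(g 1 1)) * hx + d * g 0 1 * hz + (d : ℤ) * hdet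
  have hDpos : 0 < D := by
    have h1 : (0 : ℤ) < a := by exact_mod_cast Nat.pos_of_ne_zero ha0
    have h2 : (0 : ℤ) < d := by exact_mod_cast Nat.pos_of_ne_zero (NeZero.ne d)
    rw [← haD] at h2
    exact (mul_pos_iff_of_pos_left h1).mp h2
  -- reduce `B` modulo `D`
  set b : ℤ := B % D with hb
  have hb0 : 0 ≤ b := Int.emod_nonneg _ hDpos.ne'
  have hbD : b < D := Int.emod_lt_of_pos _ hDpos
  set n : ℤ := B / D with hn
  have hBn : B = b + n * D := by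
    have := Int.emod_add_mul_ediv B D
    rw [← hb, ← hn] at this
    linarith
  let g' : SL(2, ℤ) := ⟨!![x, x * n + y; z, z * n + w], by
    rw [Matrix.det_fin_two_of]
    linear_combination hdet0⟩
  have e00 : g' 0 0 = x := rfl
  have e01 : g' 0 1 = x * n + y := rfl
  have e10 : g' 1 0 = z := rfl
  have e11 : g' 1 1 = z * n + w := rfl
  refine ⟨a, b.toNat, D.toNat, ⟨ha0⟩, ⟨by omega⟩, g', ?_, by omega, ?_⟩
  · have : ((a * D.toNat : ℕ) : ℤ) = (d : ℤ) := by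
      push_cast
      rw [Int.toNat_of_nonneg hDpos.le, haD]
    exact_mod_cast this
  · intro τ
    have : NeZero a := ⟨ha0⟩
    have : NeZero D.toNat := ⟨by omega⟩
    refine aff_smul_eq d 0 1 a b.toNat D.toNat g g' ?_ ?_ ?_ ?_ τ
    · rw [e00]; push_cast; linear_combination hx
    · rw [e00, e01]
      push_cast
      rw [Int.toNat_of_nonneg hDpos.le, Int.toNat_of_nonneg hb0]
      have h1 : x * B + y * D = d * g 0 1 := by
        rw [hB, hD]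
        linear_combination (d * g 0 1) * hdet0
      linear_combination -h1 + x * hBn
    · rw [e10]; push_cast; linear_combination hz
    · rw [e10, e11]
      push_cast
      rw [Int.toNat_of_nonneg hDpos.le, Int.toNat_of_nonneg hb0]
      have h1 : z * B + w * D = g 1 1 := by
        rw [hB, hD]
        linear_combination (g 1 1) * hdet0
      linear_combination -h1 + z * hBn

theorem mul_aux_int {A00 A01 A10 A11 B00 B01 B10 B11 N : ℤ} (hN : N ≠ 0)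
    (hA : A00 * A11 - A01 * A10 = N) (hB : B00 * B11 - B01 * B10 = N)
    (h1 : A00 * B10 = B00 * A10) (h3 : A00 * B11 + A01 * B10 = B00 * A11 + B01 * A10) :
    A10 = B10 ∨ A10 = -B10 := by
  set t := A00 * B11 - B01 * A10 with ht
  have e1 : N * A10 = B10 * t := by
    rw [← hB, ht]; linear_combination B11 * (-h1)
  have e2 : N * B10 = A10 * t := by
    rw [← hA, ht]; linear_combination A11 * h1 - A10 * h3
  by_cases ht0 : t = 0
  · rw [ht0, mul_zero] at e1 e2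
    left
    rw [(mul_eq_zero.mp e1).resolve_left hN, (mul_eq_zero.mp e2).resolve_left hN]
  · have h4 : t * (A10 ^ 2 - B10 ^ 2) = 0 := by linear_combination B10 * e1 - A10 * e2
    have h5 : A10 ^ 2 - B10 ^ 2 = 0 := (mul_eq_zero.mp h4).resolve_left ht0
    exact sq_eq_sq_iff_eq_or_eq_neg.mp (by linarith)

/-- (G2) If `diag(N, 1) g` and `g' (N b; 0 1)` agree as Möbius transformations then
`g ∈ Γ₀(N)`. -/
theorem mem_Gamma0_of_aff_eq (N : ℕ) [NeZero N] (b : ℕ) (g g' : SL(2, ℤ))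
    (h : ∀ τ : ℍ, aff N 0 1 (g • τ) = g' • aff N b 1 τ) : g ∈ Gamma0 N := by
  have hN : (N : ℤ) ≠ 0 := by exact_mod_cast NeZero.ne N
  have key : ∀ τ : ℍ, ((N * g 0 0 : ℤ) * (τ : ℂ) + (N * g 0 1 : ℤ)) *
      ((g' 1 0 * N : ℤ) * (τ : ℂ) + (g' 1 0 * b + g' 1 1 : ℤ)) =
      ((g' 0 0 * N : ℤ) * (τ : ℂ) + (g' 0 0 * b + g' 0 1 : ℤ)) *
      ((g 1 0 : ℤ) * (τ : ℂ) + (g 1 1 : ℤ)) := by
    intro τ
    have h1 := congrArg (fun z : ℍ => (z : ℂ)) (h τ)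
    simp only [coe_aff, coe_sl_smul, Nat.cast_one, div_one, Nat.cast_zero, add_zero] at h1
    have h2 := sl_denom_ne_zero g τ
    have h3 := sl_denom_ne_zero g' (aff N b 1 τ)
    simp only [coe_aff, Nat.cast_one, div_one] at h3
    rw [mul_div_assoc', div_eq_div_iff h2 h3] at h1
    push_cast
    linear_combination h1
  set A00 : ℤ := N * g 0 0
  set A01 : ℤ := N * g 0 1
  set B10 : ℤ := g' 1 0 * N
  set B11 : ℤ := g' 1 0 * b + g' 1 1
  set B00 : ℤ := g' 0 0 * N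
  set B01 : ℤ := g' 0 0 * b + g' 0 1
  set p : ℤ := A00 * B10 - B00 * g 1 0 with hp
  set q : ℤ := A00 * B11 + A01 * B10 - B00 * g 1 1 - B01 * g 1 0 with hq
  set r : ℤ := A01 * B11 - B01 * g 1 1 with hr
  have key2 : ∀ τ : ℍ, (p : ℂ) * τ ^ 2 + q * τ + r = 0 := by
    intro τ
    have := key τ
    rw [hp, hq, hr]
    push_cast
    linear_combination this
  have hI := key2 UpperHalfPlane.I
  let τ2 : ℍ := ⟨2 * Complex.I, by simp⟩
  have h2I := key2 τ2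
  have c1 : (UpperHalfPlane.I : ℂ) = Complex.I := rfl
  have c2 : (τ2 : ℂ) = 2 * Complex.I := rfl
  rw [c1, Complex.I_sq] at hI
  rw [c2, mul_pow, Complex.I_sq] at h2I
  have r1 := congrArg Complex.re hI
  have i1 := congrArg Complex.im hI
  have r2 := congrArg Complex.re h2I
  simp at r1 i1 r2
  have r1' : -p + r = 0 := by exact_mod_cast r1
  have r2' : p * (2 ^ 2 * (-1)) + r = 0 := by
    have : (p : ℝ) * (2 ^ 2 * (-1)) + r = 0 := by
      have e : (((2 : ℂ) ^ 2)).re = 4 := by norm_num [sq]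
      rw [e] at r2
      linarith
    exact_mod_cast this
  have hp0 : p = 0 := by omega
  have hq0 : q = 0 := by exact_mod_cast i1
  have hA : A00 * g 1 1 - A01 * g 1 0 = N := by
    linear_combination (N : ℤ) * sl_det g
  have hB : B00 * B11 - B01 * B10 = N := by
    linear_combination (N : ℤ) * sl_det g'
  have h4 := mul_aux_int (A10 := g 1 0) (A11 := g 1 1) hN hA hB (by rw [hp] at hp0; linarith)
    (by rw [hq] at hq0; linarith)
  rw [Gamma0_mem]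
  have : (N : ℤ) ∣ g 1 0 := by
    rcases h4 with h4 | h4
    · exact ⟨g' 1 0, by rw [h4]; ring⟩
    · exact ⟨-g' 1 0, by rw [h4]; ring⟩
  exact (ZMod.intCast_zmod_eq_zero_iff_dvd _ _).mpr this

/-- (G3) -/
theorem exists_aff_smul_of_mem_Gamma0 (N : ℕ) (d : ℕ) [NeZero d] (hd : d ∣ N) (g : SL(2, ℤ))
    (hg : g ∈ Gamma0 N) : ∃ g' : SL(2, ℤ), ∀ τ : ℍ, aff d 0 1 (g • τ) = g' • aff d 0 1 τ := by
  rw [Gamma0_mem] at hg
  have h1 : (N : ℤ) ∣ g 1 0 := (ZMod.intCast_zmod_eq_zero_iff_dvd _ _).mp hg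
  obtain ⟨c, hc⟩ : (d : ℤ) ∣ g 1 0 := (Int.natCast_dvd_natCast.mpr hd).trans h1
  let g' : SL(2, ℤ) := ⟨!![g 0 0, d * g 0 1; c, g 1 1], by
    rw [Matrix.det_fin_two_of]
    linear_combination sl_det g + g 0 1 * hc⟩
  have e00 : g' 0 0 = g 0 0 := rfl
  have e01 : g' 0 1 = d * g 0 1 := rfl
  have e10 : g' 1 0 = c := rfl
  have e11 : g' 1 1 = g 1 1 := rfl
  refine ⟨g', aff_smul_eq d 0 1 d 0 1 g g' ?_ ?_ ?_ ?_⟩
  · rw [e00]; push_cast; ring
  · rw [e00, e01]; push_cast; ring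
  · rw [e10]; push_cast; linear_combination hc
  · rw [e10, e11]; push_cast; ring

end Fermat.Agent.X0Emb
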