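import Mathlib
import Fermat.Prelude.Def_ModularCurve_LaurentCoeff

/-! Algebraic lemmas for the degree of the modular function field over `K(j)` (helper80). -/

set_option autoImplicit false

noncomputable section

open Polynomial
open scoped IntermediateField

namespace Fermat.Agent.X0Deg

section LinDisj

variable {K C : Type*} [Field K] [Field C] (ι : K →+* C)

/-- Laurent series over `K` which are linearly independent over `K` stay so over a bigger field. -/
theorem exists_relation {I : Type*} [Fintype I] (f : I → LaurentSeries K) (c : I → C)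
    (hc : ∃ i, c i ≠ 0)
    (h : ∑ i, c i • ModularCurve.coeffMap ι (f i) = 0) :
    ∃ d : I → K, (∃ i, d i ≠ 0) ∧ ∑ i, d i • f i = 0 ∧ ∀ i, c i = 0 → d i = 0 := by
  let _ : Algebra K C := ι.toAlgebra
  obtain ⟨i0, hi0⟩ := hc
  obtain ⟨φ, hφ⟩ : ∃ φ : Module.Dual K C, φ (c i0) ≠ 0 := by
    by_contra hcon
    push Not at hcon
    exact hi0 ((Module.forall_dual_apply_eq_zero_iff K (c i0)).mp hcon)
  refine ⟨fun i => φ (c i), ⟨i0, hφ⟩, ?_, fun i hi => by simp [hi]⟩
  ext n
  have h1 : ∑ i, c i * ι ((f i).coeff n) = 0 := by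
    have := congrArg (fun G : LaurentSeries C => G.coeff n) h
    simpa [HahnSeries.coeff_sum] using this
  have h2 := congrArg φ h1
  rw [map_sum, map_zero] at h2
  have h3 : ∀ i, φ (c i * ι ((f i).coeff n)) = φ (c i) * (f i).coeff n := by
    intro i
    rw [mul_comm, show ι ((f i).coeff n) * c i = (f i).coeff n • c i from
      (Algebra.smul_def _ _).symm, map_smul, smul_eq_mul, mul_comm]
  simp only [h3] at h2
  simpa [HahnSeries.coeff_sum] using h2

end LinDisj

section Bounded

variable {E F : Type*} [Field E] [Field F] [Algebra E F]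

/-- A separable algebraic extension in which all degrees are at most `n` is finite of degree at
most `n`. -/
theorem finite_of_bounded [CharZero E] (n : ℕ)
    (h : ∀ a : F, IsIntegral E a ∧ (minpoly E a).natDegree ≤ n) :
    FiniteDimensional E F ∧ Module.finrank E F ≤ n := by
  have hint : Algebra.IsIntegral E F := ⟨fun a => (h a).1⟩
  obtain ⟨θ, hθ⟩ : ∃ θ : F, ∀ a : F, (minpoly E a).natDegree ≤ (minpoly E θ).natDegree := by
    let S : Set ℕ := Set.range fun a : F => (minpoly E a).natDegree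
    have hS : S.Nonempty := ⟨_, 0, rfl⟩
    have hb : BddAbove S := ⟨n, by rintro _ ⟨a, rfl⟩; exact (h a).2⟩
    obtain ⟨θ, hθ⟩ := Nat.sSup_mem hS hb
    exact ⟨θ, fun a => by
      show _ ≤ (fun a : F => (minpoly E a).natDegree) θ
      rw [hθ]
      exact le_csSup hb ⟨a, rfl⟩⟩
  have htop : E⟮θ⟯ = ⊤ := by
    rw [eq_top_iff]
    intro β _
    have hfin : FiniteDimensional E (IntermediateField.adjoin E {θ, β}) :=
      IntermediateField.finiteDimensional_adjoin fun a _ => (h a).1
    obtain ⟨γ, hγ⟩ := Field.exists_primitive_element E (IntermediateField.adjoin E {θ, β})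
    have h1 : E⟮(γ : F)⟯ = IntermediateField.adjoin E {θ, β} := by
      have h2 := congrArg (IntermediateField.map (IntermediateField.val _)) hγ
      rw [IntermediateField.adjoin_map, Set.image_singleton, ← AlgHom.fieldRange_eq_map,
        IntermediateField.fieldRange_val] at h2
      exact h2
    have hθle : E⟮θ⟯ ≤ E⟮(γ : F)⟯ := by
      rw [h1, IntermediateField.adjoin_simple_le_iff]
      exact IntermediateField.subset_adjoin _ _ (by simp)
    have hfγ : FiniteDimensional E E⟮(γ : F)⟯ :=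
      IntermediateField.adjoin.finiteDimensional (h _).1
    have h3 : Module.finrank E E⟮(γ : F)⟯ ≤ Module.finrank E E⟮θ⟯ := by
      rw [IntermediateField.adjoin.finrank (h _).1, IntermediateField.adjoin.finrank (h _).1]
      exact hθ _
    have h4 : E⟮θ⟯ = E⟮(γ : F)⟯ := IntermediateField.eq_of_le_of_finrank_le hθle h3
    rw [h4, h1]
    exact IntermediateField.subset_adjoin _ _ (by simp)
  have h5 : FiniteDimensional E E⟮θ⟯ := IntermediateField.adjoin.finiteDimensional (h _).1
  rw [htop] at h5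
  refine ⟨?_, ?_⟩
  · exact Module.Finite.equiv (IntermediateField.topEquiv (F := E) (E := F)).toLinearEquiv
  · rw [← IntermediateField.finrank_top', ← htop, IntermediateField.adjoin.finrank (h _).1]
    exact (h θ).2

end Bounded

section Frac

variable {K F : Type*} [Field K] [Field F] [Algebra K F]

theorem exists_mul_mem (E : IntermediateField K F) (A : Subring F)
    (hE : ∀ e ∈ E, ∃ p q, p ∈ A ∧ q ∈ A ∧ q ∈ E ∧ q ≠ 0 ∧ e * q = p)
    (hfrac : ∀ θ : F, ∃ a b, a ∈ A ∧ b ∈ A ∧ b ≠ 0 ∧ θ * b = a)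
    (hint : ∀ a ∈ A, IsIntegral E a) (θ : F) :
    ∃ q, q ∈ A ∧ q ∈ E ∧ q ≠ 0 ∧ θ * q ∈ A := by
  obtain ⟨a, b, ha, hb, hb0, hab⟩ := hfrac θ
  have key : ∀ z ∈ Algebra.adjoin E {b}, ∃ q, q ∈ A ∧ q ∈ E ∧ q ≠ 0 ∧ z * q ∈ A := by
    intro z hz
    induction hz using Algebra.adjoin_induction with
    | mem x hx =>
      rw [Set.mem_singleton_iff.mp hx]
      exact ⟨1, one_mem _, one_mem _, one_ne_zero, by rwa [mul_one]⟩
    | algebraMap r =>
      obtain ⟨p, q, hp, hq, hqE, hq0, hpq⟩ := hE r r.2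
      exact ⟨q, hq, hqE, hq0, by
        rw [show algebraMap E F r * q = p from hpq]; exact hp⟩
    | add x y _ _ hx hy =>
      obtain ⟨q1, h1, h2, h3, h4⟩ := hx
      obtain ⟨q2, g1, g2, g3, g4⟩ := hy
      refine ⟨q1 * q2, mul_mem h1 g1, mul_mem h2 g2, mul_ne_zero h3 g3, ?_⟩
      have : (x + y) * (q1 * q2) = (x * q1) * q2 + (y * q2) * q1 := by ring
      rw [this]
      exact add_mem (mul_mem h4 g1) (mul_mem g4 h1)
    | mul x y _ _ hx hy =>
      obtain ⟨q1, h1, h2, h3, h4⟩ := hx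
      obtain ⟨q2, g1, g2, g3, g4⟩ := hy
      refine ⟨q1 * q2, mul_mem h1 g1, mul_mem h2 g2, mul_ne_zero h3 g3, ?_⟩
      have : (x * y) * (q1 * q2) = (x * q1) * (y * q2) := by ring
      rw [this]
      exact mul_mem h4 g4
  obtain ⟨q, h1, h2, h3, h4⟩ := key b⁻¹ (hint b hb).inv_mem_adjoin
  refine ⟨q, h1, h2, h3, ?_⟩
  have : θ * q = a * (b⁻¹ * q) := by
    rw [← hab]
    field_simp
  rw [this]
  exact mul_mem ha h4

theorem finite_of_subring [CharZero K] (E : IntermediateField K F) (A : Subring F) (n : ℕ)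
    (hE : ∀ e ∈ E, ∃ p q, p ∈ A ∧ q ∈ A ∧ q ∈ E ∧ q ≠ 0 ∧ e * q = p)
    (hfrac : ∀ θ : F, ∃ a b, a ∈ A ∧ b ∈ A ∧ b ≠ 0 ∧ θ * b = a)
    (hA : ∀ a ∈ A, IsIntegral E a ∧ (minpoly E a).natDegree ≤ n) :
    FiniteDimensional E F ∧ Module.finrank E F ≤ n := by
  have : CharZero E := inferInstance
  refine finite_of_bounded n fun θ => ?_
  obtain ⟨q, hqA, hqE, hq0, hθq⟩ := exists_mul_mem E A hE hfrac (fun a ha => (hA a ha).1) θ
  obtain ⟨h1, h2⟩ := hA _ hθq
  have hq' : (⟨q, hqE⟩ : E) ≠ 0 := fun h => hq0 (congrArg Subtype.val h)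
  have h3 : θ = (⟨q, hqE⟩ : E)⁻¹ • (θ * q) := by
    rw [Algebra.smul_def, map_inv₀]
    show θ = q⁻¹ * (θ * q)
    field_simp
  have h4 : IsIntegral E θ := by
    rw [h3]
    exact h1.smul _
  refine ⟨h4, ?_⟩
  have h5 : E⟮θ⟯ ≤ E⟮θ * q⟯ := by
    rw [IntermediateField.adjoin_simple_le_iff]
    have := IntermediateField.smul_mem E⟮θ * q⟯ (IntermediateField.mem_adjoin_simple_self E (θ * q))
      (x := (⟨q, hqE⟩ : E)⁻¹)
    rwa [← h3] at this
  have hfin : FiniteDimensional E E⟮θ * q⟯ := IntermediateField.adjoin.finiteDimensional h1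
  calc (minpoly E θ).natDegree = Module.finrank E E⟮θ⟯ := (IntermediateField.adjoin.finrank h4).symm
    _ ≤ Module.finrank E E⟮θ * q⟯ := IntermediateField.finrank_le_of_le_right h5
    _ = (minpoly E (θ * q)).natDegree := IntermediateField.adjoin.finrank h1
    _ ≤ n := h2

theorem isIntegral_of_relation {j : F} (hj : Transcendental K j) (a : F) {n m : ℕ}
    (d : Fin (n + 1) × Fin (m + 1) → K) (h0 : ∃ i, d i ≠ 0)
    (hd : ∑ i, algebraMap K F (d i) * (j ^ (i.2 : ℕ) * a ^ (i.1 : ℕ)) = 0) :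
    IsIntegral K⟮j⟯ a ∧ (minpoly K⟮j⟯ a).natDegree ≤ n := by
  classical
  obtain ⟨⟨i0, k0⟩, h0⟩ := h0
  let r : Fin (n + 1) → Polynomial K := fun i =>
    ∑ k : Fin (m + 1), Polynomial.monomial (k : ℕ) (d (i, k))
  have hr : r i0 ≠ 0 := by
    intro h
    have := congrArg (fun p => Polynomial.coeff p (k0 : ℕ)) h
    simp only [r, Polynomial.finsetSum_coeff, Polynomial.coeff_monomial,
      Polynomial.coeff_zero] at this
    rw [Finset.sum_eq_single k0 (fun k _ hk => if_neg (fun h => hk (Fin.ext h))) (by simp)] at this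
    rw [if_pos rfl] at this
    exact h0 this
  let c : Fin (n + 1) → K⟮j⟯ := fun i =>
    Polynomial.aeval (IntermediateField.AdjoinSimple.gen K j) (r i)
  have hcoe : ∀ i, ((c i : K⟮j⟯) : F) = Polynomial.aeval j (r i) := by
    intro i
    have := Polynomial.aeval_algHom_apply (K⟮j⟯.val) (IntermediateField.AdjoinSimple.gen K j)
      (r i)
    exact this.symm
  have hc0 : c i0 ≠ 0 := by
    intro h
    have h1 := hcoe i0
    rw [h] at h1
    exact hr ((transcendental_iff.mp hj) _ h1.symm)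
  let q : Polynomial K⟮j⟯ := ∑ i : Fin (n + 1), Polynomial.monomial (i : ℕ) (c i)
  have hq : q ≠ 0 := by
    intro h
    have := congrArg (fun p => Polynomial.coeff p (i0 : ℕ)) h
    simp only [q, Polynomial.finsetSum_coeff, Polynomial.coeff_monomial,
      Polynomial.coeff_zero] at this
    rw [Finset.sum_eq_single i0 (fun k _ hk => if_neg (fun h => hk (Fin.ext h))) (by simp)] at this
    rw [if_pos rfl] at this
    exact hc0 this
  have hdeg : q.natDegree ≤ n := by
    refine Polynomial.natDegree_sum_le_of_forall_le _ _ fun i _ => ?_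
    exact (Polynomial.natDegree_monomial_le _).trans (by omega)
  have hz : Polynomial.aeval a q = 0 := by
    rw [map_sum, ← hd, Fintype.sum_prod_type]
    refine Finset.sum_congr rfl fun i _ => ?_
    rw [Polynomial.aeval_monomial]
    change (c i : F) * _ = _
    rw [hcoe, map_sum, Finset.sum_mul]
    refine Finset.sum_congr rfl fun k _ => ?_
    rw [Polynomial.aeval_monomial]
    ring
  have halg : IsAlgebraic K⟮j⟯ a := ⟨q, hq, hz⟩
  refine ⟨halg.isIntegral, ?_⟩
  exact (Polynomial.natDegree_le_natDegree (minpoly.degree_le_of_ne_zero _ _ hq hz)).trans hdeg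

theorem exists_frac_of_mem_adjoin (A : Subalgebra K F) {j : F} (hj : j ∈ A) (e : F)
    (he : e ∈ K⟮j⟯) :
    ∃ p q : F, p ∈ A.toSubring ∧ q ∈ A.toSubring ∧ q ∈ K⟮j⟯ ∧ q ≠ 0 ∧ e * q = p := by
  rw [IntermediateField.mem_adjoin_simple_iff] at he
  obtain ⟨r, s, rfl⟩ := he
  have hA : ∀ r : Polynomial K, Polynomial.aeval j r ∈ A := by
    intro r
    have : Polynomial.aeval j r = ((Polynomial.aeval (⟨j, hj⟩ : A) r : A) : F) :=
      (Polynomial.aeval_algHom_apply (A.val) (⟨j, hj⟩ : A) r)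
    rw [this]
    exact Subtype.property _
  by_cases hs : Polynomial.aeval j s = 0
  · refine ⟨0, 1, zero_mem _, one_mem _, one_mem _, one_ne_zero, ?_⟩
    rw [hs, div_zero, zero_mul]
  · refine ⟨_, _, hA r, hA s, ?_, hs, div_mul_cancel₀ _ hs⟩
    rw [IntermediateField.mem_adjoin_simple_iff]
    exact ⟨s, 1, by simp⟩

end Frac

end Fermat.Agent.X0Deg
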