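import Mathlib
import Fermat.Agent.JLevelOne.Order

set_option autoImplicit false

open UpperHalfPlane Complex Function Filter Topology ModularForm
open scoped Manifold MatrixGroups

noncomputable section

namespace Fermat.Agent.X0Emb

open Fermat.Agent.JLevelOne

/-- The ring of holomorphic functions on the upper half plane. -/
def Hol : Subring (ℍ → ℂ) where
  carrier := {f | MDiff f}
  mul_mem' hf hg := MDifferentiable.mul hf hg
  one_mem' := mdifferentiable_const
  add_mem' hf hg := MDifferentiable.add hf hg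
  zero_mem' := mdifferentiable_const
  neg_mem' hf := MDifferentiable.neg hf

theorem mem_Hol {f : ℍ → ℂ} : f ∈ Hol ↔ MDiff f := Iff.rfl

instance : CoeFun Hol fun _ ↦ ℍ → ℂ := ⟨fun f ↦ f.1⟩

theorem Hol.mdiff (f : Hol) : MDiff (f : ℍ → ℂ) := f.2

@[ext] theorem Hol.ext {f g : Hol} (h : ∀ τ, f τ = g τ) : f = g := Subtype.ext (funext h)

@[simp] theorem Hol.add_apply (f g : Hol) (τ : ℍ) : (f + g) τ = f τ + g τ := rfl
@[simp] theorem Hol.mul_apply (f g : Hol) (τ : ℍ) : (f * g) τ = f τ * g τ := rfl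
@[simp] theorem Hol.sub_apply (f g : Hol) (τ : ℍ) : (f - g) τ = f τ - g τ := rfl
@[simp] theorem Hol.neg_apply (f : Hol) (τ : ℍ) : (-f) τ = - f τ := rfl
@[simp] theorem Hol.zero_apply (τ : ℍ) : (0 : Hol) τ = 0 := rfl
@[simp] theorem Hol.one_apply (τ : ℍ) : (1 : Hol) τ = 1 := rfl
@[simp] theorem Hol.mk_apply (f : ℍ → ℂ) (hf : f ∈ Hol) (τ : ℍ) : (⟨f, hf⟩ : Hol) τ = f τ := rfl
@[simp] theorem Hol.pow_apply (f : Hol) (n : ℕ) (τ : ℍ) : (f ^ n) τ = f τ ^ n := rfl

theorem Hol.analyticOnNhd (f : Hol) : AnalyticOnNhd ℂ ((f : ℍ → ℂ) ∘ ofComplex) upperHalfPlaneSet :=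
  (UpperHalfPlane.mdifferentiable_iff.mp f.2).analyticOnNhd isOpen_upperHalfPlaneSet

theorem isPreconnected_uhp : IsPreconnected upperHalfPlaneSet :=
  Convex.isPreconnected (convex_halfSpace_im_gt 0)

theorem Hol.eq_zero_of_forall {f : Hol} (h : ∀ z ∈ upperHalfPlaneSet, ((f : ℍ → ℂ) ∘ ofComplex) z = 0) :
    f = 0 := by
  ext τ
  have := h (τ : ℂ) τ.im_pos
  simpa using this

instance : IsDomain Hol := by
  have : NoZeroDivisors Hol := by
    refine ⟨fun {f g} hfg ↦ ?_⟩
    have h1 := AnalyticOnNhd.eq_zero_or_eq_zero_of_mul_eq_zero (Hol.analyticOnNhd f) (Hol.analyticOnNhd g)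
      (fun z hz ↦ by
        have := congrArg (fun u : Hol ↦ u (⟨z, hz⟩ : ℍ)) hfg
        simpa [ofComplex_apply_of_im_pos hz] using this) isPreconnected_uhp
    exact h1.imp Hol.eq_zero_of_forall Hol.eq_zero_of_forall
  have : Nontrivial Hol := ⟨0, 1, fun h ↦ by
    have := congrArg (fun u : Hol ↦ u UpperHalfPlane.I) h
    simp at this⟩
  exact NoZeroDivisors.to_isDomain _

/-- constants -/
def constHol : ℂ →+* Hol where
  toFun c := ⟨fun _ ↦ c, mdifferentiable_const⟩
  map_one' := rfl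
  map_zero' := rfl
  map_add' _ _ := rfl
  map_mul' _ _ := rfl

@[simp] theorem constHol_apply (c : ℂ) (τ : ℍ) : constHol c τ = c := rfl

instance : MulSemiringAction SL(2, ℤ) Hol where
  smul g f := ⟨fun τ ↦ f (g⁻¹ • τ), by
    have hdet : 0 < (((g⁻¹ : SL(2, ℤ)) : GL (Fin 2) ℝ)).det.val := by simp
    exact (Hol.mdiff f).comp (mdifferentiable_smul hdet)⟩
  one_smul f := by
    ext τ
    change f ((1 : SL(2, ℤ))⁻¹ • τ) = f τ
    simp
  mul_smul g h f := by
    ext τ
    change f ((g * h)⁻¹ • τ) = f (h⁻¹ • (g⁻¹ • τ))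
    rw [mul_inv_rev, mul_smul]
  smul_zero g := rfl
  smul_add g f₁ f₂ := rfl
  smul_one g := rfl
  smul_mul g f₁ f₂ := rfl

@[simp] theorem Hol.smul_apply (g : SL(2, ℤ)) (f : Hol) (τ : ℍ) : (g • f) τ = f (g⁻¹ • τ) := rfl

@[simp] theorem smul_constHol (g : SL(2, ℤ)) (c : ℂ) : g • constHol c = constHol c := rfl

/-- The field of meromorphic functions (quotients of holomorphic functions). -/
abbrev MerH : Type := FractionRing Hol

instance : MulSemiringAction SL(2, ℤ) MerH := IsFractionRing.mulSemiringAction SL(2, ℤ) Hol MerH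

@[simp] theorem smul_algebraMap_merH (g : SL(2, ℤ)) (f : Hol) :
    g • (algebraMap Hol MerH f) = algebraMap Hol MerH (g • f) :=
  (algebraMap.smul' g f MerH).symm

/-- order of vanishing of a holomorphic function -/
def ordH (τ0 : ℍ) (f : Hol) : ℕ∞ := analyticOrderAt ((f : ℍ → ℂ) ∘ ofComplex) (τ0 : ℂ)

theorem ordH_mul (τ0 : ℍ) (f g : Hol) : ordH τ0 (f * g) = ordH τ0 f + ordH τ0 g :=
  analyticOrderAt_mul (analyticAt_of_mdiff (Hol.mdiff f) τ0) (analyticAt_of_mdiff (Hol.mdiff g) τ0)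

theorem ordH_add (τ0 : ℍ) (f g : Hol) : min (ordH τ0 f) (ordH τ0 g) ≤ ordH τ0 (f + g) :=
  le_analyticOrderAt_add

theorem ordH_ne_top (τ0 : ℍ) {f : Hol} (hf : f ≠ 0) : ordH τ0 f ≠ ⊤ := by
  intro h
  apply hf
  apply Hol.eq_zero_of_forall
  exact (Hol.analyticOnNhd f).eqOn_zero_of_preconnected_of_eventuallyEq_zero isPreconnected_uhp
    τ0.im_pos (analyticOrderAt_eq_top.mp h)

theorem ordH_zero (τ0 : ℍ) : ordH τ0 0 = ⊤ := by
  rw [ordH, analyticOrderAt_eq_top]
  exact Eventually.of_forall fun z ↦ rfl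

theorem ordH_const (τ0 : ℍ) {c : ℂ} (hc : c ≠ 0) : ordH τ0 (constHol c) = 0 :=
  analyticOrderAt_eq_zero_of_ne (by simpa using hc)

theorem ordH_smul (τ0 : ℍ) (g : SL(2, ℤ)) (f : Hol) : ordH τ0 (g • f) = ordH (g⁻¹ • τ0) f :=
  analyticOrderAt_comp_smul g⁻¹ f τ0

/-- auxiliary exponential -/
def eExp (n : ℕ∞) : WithZero (Multiplicative ℤ) :=
  if n = ⊤ then 0 else WithZero.exp (-(n.toNat : ℤ))

theorem eExp_add (m n : ℕ∞) : eExp (m + n) = eExp m * eExp n := by
  unfold eExp
  induction m with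
  | top => simp
  | coe m =>
    induction n with
    | top => simp
    | coe n =>
      have h1 : ((m : ℕ∞) + (n : ℕ∞)) = ((m + n : ℕ) : ℕ∞) := by push_cast; rfl
      rw [h1]
      simp only [ENat.natCast_ne_top, if_false, ENat.toNat_natCast]
      rw [← WithZero.exp_add]
      congr 1
      push_cast; ring

theorem eExp_anti {m n : ℕ∞} (h : m ≤ n) : eExp n ≤ eExp m := by
  unfold eExp
  induction n with
  | top => simp
  | coe n =>
    have hm : m ≠ ⊤ := ne_top_of_le_ne_top (ENat.natCast_ne_top n) h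
    lift m to ℕ using hm
    simp only [ENat.natCast_ne_top, if_false, ENat.toNat_natCast]
    rw [WithZero.exp_le_exp]
    have : m ≤ n := by exact_mod_cast h
    omega

/-- the valuation on `Hol` -/
def valH (τ0 : ℍ) : Valuation Hol (WithZero (Multiplicative ℤ)) where
  toFun f := eExp (ordH τ0 f)
  map_zero' := by rw [ordH_zero]; simp [eExp]
  map_one' := by
    have : ordH τ0 1 = 0 := ordH_const τ0 one_ne_zero
    rw [this]; simp [eExp]
  map_mul' f g := by rw [ordH_mul, eExp_add]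
  map_add_le_max' f g := by
    rcases min_le_iff.mp (ordH_add τ0 f g) with h | h
    · exact (eExp_anti h).trans (le_max_left _ _)
    · exact (eExp_anti h).trans (le_max_right _ _)

theorem valH_eq_zero_iff (τ0 : ℍ) (f : Hol) : valH τ0 f = 0 ↔ f = 0 := by
  constructor
  · intro h
    by_contra hf
    have h1 := ordH_ne_top τ0 hf
    change eExp (ordH τ0 f) = 0 at h
    unfold eExp at h
    rw [if_neg h1] at h
    exact WithZero.exp_ne_zero h
  · rintro rfl; exact map_zero _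

/-- the valuation on `MerH` -/
def valM (τ0 : ℍ) : Valuation MerH (WithZero (Multiplicative ℤ)) :=
  (valH τ0).extendToLocalization (S := nonZeroDivisors Hol) (by
    intro f hf
    rw [Ideal.mem_primeCompl_iff, Valuation.mem_supp_iff, valH_eq_zero_iff]
    exact nonZeroDivisors.ne_zero hf) MerH

theorem valM_algebraMap (τ0 : ℍ) (f : Hol) : valM τ0 (algebraMap Hol MerH f) = valH τ0 f :=
  Valuation.extendToLocalization_apply_map_apply _ _ _ _

/-- the order of a meromorphic function at a point of the upper half plane -/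
def ordAt (τ0 : ℍ) (f : MerH) : ℤ := - WithZero.log (valM τ0 f)

theorem ordAt_mul (τ0 : ℍ) (f g : MerH) (hf : f ≠ 0) (hg : g ≠ 0) :
    ordAt τ0 (f * g) = ordAt τ0 f + ordAt τ0 g := by
  unfold ordAt
  rw [map_mul, WithZero.log_mul ((Valuation.ne_zero_iff _).mpr hf) ((Valuation.ne_zero_iff _).mpr hg)]
  ring

theorem ordAt_add (τ0 : ℍ) (f g : MerH) (hf : f ≠ 0) (hg : g ≠ 0) (hfg : f + g ≠ 0) :
    min (ordAt τ0 f) (ordAt τ0 g) ≤ ordAt τ0 (f + g) := by
  have hf' := (Valuation.ne_zero_iff (valM τ0)).mpr hf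
  have hg' := (Valuation.ne_zero_iff (valM τ0)).mpr hg
  have hfg' := (Valuation.ne_zero_iff (valM τ0)).mpr hfg
  unfold ordAt
  rcases le_max_iff.mp ((valM τ0).map_add f g) with h | h
  · refine min_le_of_left_le (neg_le_neg ?_)
    exact (WithZero.log_le_log hfg' hf').mpr h
  · refine min_le_of_right_le (neg_le_neg ?_)
    exact (WithZero.log_le_log hfg' hg').mpr h

theorem ordAt_algebraMap (τ0 : ℍ) {f : Hol} (hf : f ≠ 0) :
    ordAt τ0 (algebraMap Hol MerH f) = ((ordH τ0 f).toNat : ℤ) := by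
  unfold ordAt
  rw [valM_algebraMap]
  change - WithZero.log (eExp (ordH τ0 f)) = _
  unfold eExp
  rw [if_neg (ordH_ne_top τ0 hf), WithZero.log_exp, neg_neg]

end Fermat.Agent.X0Emb
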