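import Mathlib
import Fermat.Prelude.Def_ModularCurve_X0

set_option autoImplicit false

open Complex Function Filter Topology
open scoped PowerSeries.WithPiTopology

noncomputable section

namespace Fermat.Agent.X0Emb

theorem tendstoLocallyUniformlyOn_iteratedDeriv {ι : Type*} {φ : Filter ι}
    {F : ι → ℂ → ℂ} {f : ℂ → ℂ} {U : Set ℂ} (hU : IsOpen U)
    (hF : ∀ i, DifferentiableOn ℂ (F i) U) (h : TendstoLocallyUniformlyOn F f φ U) (n : ℕ) :
    TendstoLocallyUniformlyOn (fun i ↦ iteratedDeriv n (F i)) (iteratedDeriv n f) φ U ∧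
      ∀ i, DifferentiableOn ℂ (iteratedDeriv n (F i)) U := by
  induction n with
  | zero => simpa using ⟨h, hF⟩
  | succ n ih =>
    obtain ⟨h1, h2⟩ := ih
    simp only [iteratedDeriv_succ]
    exact ⟨h1.deriv (Eventually.of_forall h2) hU, fun i ↦ (h2 i).deriv hU⟩

theorem iteratedDeriv_polynomial (P : Polynomial ℂ) (n : ℕ) :
    iteratedDeriv n (fun x ↦ P.eval x) = fun x ↦ (Polynomial.derivative^[n] P).eval x := by
  induction n with
  | zero => simp
  | succ n ih =>
    rw [iteratedDeriv_succ, ih, Function.iterate_succ_apply']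
    funext x
    exact Polynomial.deriv _

theorem iteratedDeriv_polynomial_zero (P : Polynomial ℂ) (n : ℕ) :
    iteratedDeriv n (fun x ↦ P.eval x) 0 = n.factorial * P.coeff n := by
  rw [iteratedDeriv_polynomial]
  simp only
  rw [← Polynomial.coeff_zero_eq_eval_zero, Polynomial.coeff_iterate_derivative]
  simp [Nat.descFactorial_self]

/-- The Taylor coefficients of `∏' (1 - q ^ (n + 1))` are those of the formal product. -/
theorem iteratedDeriv_tprod (n : ℕ) :
    iteratedDeriv n (fun q : ℂ ↦ ∏' k : ℕ, (1 - q ^ (k + 1))) 0 =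
      n.factorial * ((ModularCurve.etaProd.coeff n : ℤ) : ℂ) := by
  have h0 : (0 : ℂ) ∈ Metric.ball (0 : ℂ) 1 := Metric.mem_ball_self one_pos
  have h1 : TendstoLocallyUniformlyOn (fun (s : Finset ℕ) (q : ℂ) ↦ ∏ k ∈ s, (1 - q ^ (k + 1)))
      (fun q : ℂ ↦ ∏' k : ℕ, (1 - q ^ (k + 1))) atTop (Metric.ball 0 1) :=
    ModularForm.multipliableLocallyUniformlyOn_one_sub_pow.hasProdLocallyUniformlyOn
  have h2 := (tendstoLocallyUniformlyOn_iteratedDeriv Metric.isOpen_ball
    (fun s ↦ by fun_prop) h1 n).1.tendsto_at h0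
  refine tendsto_nhds_unique h2 ?_
  have h3 : ∀ᶠ s : Finset ℕ in atTop, (∏ k ∈ s, (1 - PowerSeries.X ^ (k + 1) : PowerSeries ℤ)).coeff n
      = ModularCurve.etaProd.coeff n := by
    have := PowerSeries.coeff_prod_one_sub_X_pow_eventually_eq ℤ n
    rwa [← PowerSeries.WithPiTopology.tprod_one_sub_X_pow] at this
  refine tendsto_nhds_of_eventually_eq ?_
  filter_upwards [h3] with s hs
  have h4 : (fun q : ℂ ↦ ∏ k ∈ s, (1 - q ^ (k + 1))) =
      fun q ↦ (((∏ k ∈ s, (1 - Polynomial.X ^ (k + 1) : Polynomial ℤ))).map (Int.castRingHom ℂ)).eval q := by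
    funext q
    simp [Polynomial.eval_prod, Polynomial.map_prod]
  rw [h4, iteratedDeriv_polynomial_zero, Polynomial.coeff_map, ← hs, ← Polynomial.coeff_coe]
  have h5 : ((∏ k ∈ s, (1 - Polynomial.X ^ (k + 1)) : Polynomial ℤ) : PowerSeries ℤ) =
      ∏ k ∈ s, (1 - PowerSeries.X ^ (k + 1) : PowerSeries ℤ) := by
    rw [← Polynomial.coeToPowerSeries.ringHom_apply, map_prod]
    refine Finset.prod_congr rfl fun k _ ↦ ?_
    rw [map_sub, map_one, map_pow, Polynomial.coeToPowerSeries.ringHom_apply, Polynomial.coe_X]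
  rw [h5]
  simp

theorem hasSum_tprod {q : ℂ} (hq : ‖q‖ < 1) :
    HasSum (fun n : ℕ ↦ ((ModularCurve.etaProd.coeff n : ℤ) : ℂ) * q ^ n)
      (∏' k : ℕ, (1 - q ^ (k + 1))) := by
  have := Complex.hasSum_taylorSeries_on_ball (ModularForm.differentiableOn_tprod_one_sub_pow)
    (z := q) (by simpa using hq)
  convert! this using 2 with n
  rw [iteratedDeriv_tprod]
  have : (n.factorial : ℂ) ≠ 0 := by exact_mod_cast n.factorial_ne_zero
  simp only [sub_zero, smul_eq_mul]
  field_simp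

end Fermat.Agent.X0Emb
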