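import Mathlib
import Fermat.Prelude.Def_ModularCurve_X0
import Fermat.Prelude.Def_ModularCurve_LaurentCoeff
import Fermat.Prelude.Def_ModularCurve_JqCoeff
import Fermat.Agent.X0Emb.LExp
import Fermat.Agent.X0Emb.EtaExp
import Fermat.Agent.JLevelOne.Basic

set_option autoImplicit false

open UpperHalfPlane Complex Function Filter Topology ModularForm
open scoped PowerSeries.WithPiTopology Manifold MatrixGroups

noncomputable section

namespace Fermat.Agent.X0Emb

open Fermat.Agent.JLevelOne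

local notation "𝕢" => Periodic.qParam

variable {h : ℝ} {f g : ℍ → ℂ} {F G : LaurentSeries ℂ}

theorem LExp.of_hasSum {P : PowerSeries ℂ}
    (hf : ∀ τ : ℍ, HasSum (fun n : ℕ ↦ P.coeff n * 𝕢 h τ ^ n) (f τ)) :
    LExp h f (HahnSeries.ofPowerSeries ℤ ℂ P) := by
  intro τ
  have hinj : Function.Injective (fun k : ℕ ↦ (k : ℤ)) := fun a b hab ↦ by simpa using hab
  rw [← hinj.hasSum_iff]
  · convert! hf τ using 2 with k
    simp only [Function.comp, zpow_natCast, HahnSeries.ofPowerSeries_apply_coeff]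
  · intro n hn
    rw [ModularCurve.ofPowerSeries_coeff_of_neg, zero_mul]
    by_contra hlt
    rw [not_lt] at hlt
    exact hn ⟨n.toNat, by simp [hlt]⟩

theorem LExp.pow (hf : LExp h f F) (n : ℕ) : LExp h (f ^ n) (F ^ n) := by
  induction n with
  | zero => simpa using LExp.one h
  | succ n ih => rw [pow_succ, pow_succ]; exact ih.mul hf

/-- integral power series as complex Laurent series -/
def toLC : PowerSeries ℤ →+* LaurentSeries ℂ :=
  (HahnSeries.ofPowerSeries ℤ ℂ).comp (PowerSeries.map (Int.castRingHom ℂ))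

theorem norm_qParam_lt (τ : ℍ) : ‖𝕢 1 (τ : ℂ)‖ < 1 := Periodic.norm_qParam_lt_one one_pos τ.im_pos

theorem lexp_etaProd : LExp 1 (fun τ ↦ ∏' k : ℕ, (1 - 𝕢 1 (τ : ℂ) ^ (k + 1)))
    (toLC ModularCurve.etaProd) := by
  refine LExp.of_hasSum fun τ ↦ ?_
  simpa using hasSum_tprod (norm_qParam_lt τ)

theorem lexp_discriminant : LExp 1 discriminant
    (HahnSeries.single 1 1 * toLC ModularCurve.dedekindEtaUnit) := by
  rw [ModularCurve.dedekindEtaUnit, map_pow]
  have h1 := (LExp.single 1 1 1).mul (lexp_etaProd.pow 24)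
  convert h1 using 1
  funext τ
  rw [discriminant_eq_q_prod]
  simp only [Pi.mul_apply, one_mul, zpow_one, Pi.pow_apply]
  congr 1
  rw [← Multipliable.tprod_pow (multipliable_one_sub_pow (norm_qParam_lt τ))]

theorem lexp_E₄ : LExp 1 E₄ (toLC ModularCurve.eisenstein4) := by
  refine LExp.of_hasSum fun τ ↦ ?_
  have h1 := UpperHalfPlane.hasSum_qExpansion (h := 1) one_pos
    (SlashInvariantFormClass.periodic_comp_ofComplex E₄ one_mem_strictPeriods_SL)
    (ModularFormClass.holo E₄) (ModularFormClass.bdd_at_infty E₄) τ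
  convert! h1 using 2 with n
  rw [EisensteinSeries.E_qExpansion_coeff _ ⟨2, rfl⟩]
  simp only [PowerSeries.coeff_map, ModularCurve.eisenstein4, PowerSeries.coeff_mk, smul_eq_mul]
  congr 1
  by_cases hn : n = 0
  · simp [hn]
  · simp [hn, ArithmeticFunction.sigma_apply, show bernoulli 4 = -1 / 30 by decide +kernel]
    norm_num

theorem coeffMap_ofPowerSeries {R S : Type*} [CommRing R] [CommRing S] (φ : R →+* S)
    (P : PowerSeries R) : ModularCurve.coeffMap φ (HahnSeries.ofPowerSeries ℤ R P) =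
      HahnSeries.ofPowerSeries ℤ S (P.map φ) := by
  ext k
  rw [ModularCurve.coeffMap_coeff]
  rcases le_or_gt 0 k with hk | hk
  · lift k to ℕ using hk
    rw [HahnSeries.ofPowerSeries_apply_coeff, HahnSeries.ofPowerSeries_apply_coeff,
      PowerSeries.coeff_map]
  · rw [ModularCurve.ofPowerSeries_coeff_of_neg _ hk, ModularCurve.ofPowerSeries_coeff_of_neg _ hk,
      map_zero]

theorem coeffMap_jq {S : Type*} [CommRing S] (φ : ℚ →+* S) :
    ModularCurve.coeffMap φ ModularCurve.jq = ModularCurve.jqModC S := by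
  rw [← ModularCurve.jqModC_rat]
  exact ModularCurve.map_jqModC φ

theorem jqModC_eq : ModularCurve.jqModC ℂ =
    HahnSeries.single (-1) 1 * toLC ModularCurve.jNum := rfl

theorem jFun_periodic : Function.Periodic ((fun τ : ℍ ↦ jFun τ * 𝕢 1 (τ : ℂ)) ∘ ofComplex) 1 := by
  intro w
  by_cases hw : 0 < w.im
  · have hw' : 0 < (w + 1).im := by simpa using hw
    simp only [comp_apply, ofComplex_apply_of_im_pos hw', ofComplex_apply_of_im_pos hw]
    have h1 : (⟨w + 1, hw'⟩ : ℍ) = ModularGroup.T • (⟨w, hw⟩ : ℍ) := by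
      ext1
      rw [UpperHalfPlane.modular_T_smul]
      simp [add_comm]
    rw [h1, jFun_smul]
    congr 1
    simp only [Periodic.qParam, ofReal_one, div_one]
    rw [mul_add, mul_one, Complex.exp_add, Complex.exp_two_pi_mul_I, mul_one]
  · have hw' : ¬ 0 < (w + 1).im := by simpa using hw
    rw [not_lt] at hw hw'
    simp only [comp_apply, ofComplex_apply_of_im_nonpos hw', ofComplex_apply_of_im_nonpos hw]

theorem jFun_mul_q_mdiff : MDiff (fun τ : ℍ ↦ jFun τ * 𝕢 1 (τ : ℂ)) := by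
  refine jFun_mdiff.mul ?_
  rw [UpperHalfPlane.mdifferentiable_iff]
  have : DifferentiableOn ℂ (fun z : ℂ ↦ 𝕢 1 z) upperHalfPlaneSet := by
    unfold Periodic.qParam; fun_prop
  refine this.congr fun z hz ↦ ?_
  simp [ofComplex_apply_of_im_pos hz]

theorem jFun_mul_q_bdd : IsBoundedAtImInfty (fun τ : ℍ ↦ jFun τ * 𝕢 1 (τ : ℂ)) := by
  have h1 := (tendsto_E₄.pow 3).div tendsto_atImInfty_tprod_one_sub_eta_q_pow one_ne_zero
  have h2 : (fun τ : ℍ ↦ jFun τ * 𝕢 1 (τ : ℂ)) =
      fun τ ↦ E₄ τ ^ 3 / ∏' (n : ℕ), (1 - eta_q n τ) ^ 24 := by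
    funext τ
    have h0 := discriminant_ne_zero τ
    rw [discriminant_eq_q_prod] at h0
    rw [jFun, discriminant_eq_q_prod]
    have hq := qParam_ne 1 (τ : ℂ)
    have hp : ∏' (n : ℕ), (1 - eta_q n τ) ^ 24 ≠ 0 := right_ne_zero_of_mul h0
    field_simp
  rw [h2]
  exact h1.isBigO_one ℝ

theorem lexp_jFun : LExp 1 jFun (ModularCurve.jqModC ℂ) := by
  set P := qExpansion 1 (fun τ : ℍ ↦ jFun τ * 𝕢 1 (τ : ℂ)) with hP
  have h1 : LExp 1 (fun τ : ℍ ↦ jFun τ * 𝕢 1 (τ : ℂ)) (HahnSeries.ofPowerSeries ℤ ℂ P) := by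
    refine LExp.of_hasSum fun τ ↦ ?_
    have := UpperHalfPlane.hasSum_qExpansion (h := 1) one_pos (by simpa using jFun_periodic)
      jFun_mul_q_mdiff jFun_mul_q_bdd τ
    simpa using this
  have h2 : LExp 1 jFun (HahnSeries.single (-1) 1 * HahnSeries.ofPowerSeries ℤ ℂ P) := by
    have := (LExp.single 1 (-1) 1).mul h1
    convert this using 1
    funext τ
    have hq := qParam_ne 1 (τ : ℂ)
    simp only [Pi.mul_apply, one_mul, zpow_neg_one]
    field_simp
  have h3 := h2.mul lexp_discriminant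
  have h4 : jFun * discriminant = E₄ ^ 3 := by
    funext τ
    simpa using jFun_mul_discriminant τ
  rw [h4] at h3
  have h5 := h3.unique one_pos (lexp_E₄.pow 3)
  have h6 : toLC ModularCurve.dedekindEtaUnit * toLC ModularCurve.dedekindEtaUnitInv = 1 := by
    rw [← map_mul, ModularCurve.dedekindEtaUnit_mul_inv, map_one]
  have h7 : (HahnSeries.single (-1 : ℤ) (1 : ℂ)) * HahnSeries.single 1 1 = 1 := by
    rw [HahnSeries.single_mul_single]; simp
  have h8 : HahnSeries.ofPowerSeries ℤ ℂ P = toLC ModularCurve.jNum := by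
    rw [ModularCurve.jNum, map_mul, map_pow, ← h5]
    linear_combination (-(HahnSeries.ofPowerSeries ℤ ℂ P)) * h6 -
      (HahnSeries.ofPowerSeries ℤ ℂ P) * toLC ModularCurve.dedekindEtaUnit *
        toLC ModularCurve.dedekindEtaUnitInv * h7
  rw [h8] at h2
  exact h2

end Fermat.Agent.X0Emb
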