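import Mathlib
import Fermat.Agent.X0Emb.LExp
import Fermat.Agent.X0Emb.JExp
import Fermat.Agent.X0Emb.Hol

/-! Growth at infinity of functions with a Laurent expansion; invariant functions are
polynomials in `j` (helper80). -/

set_option autoImplicit false

open UpperHalfPlane Complex Function Filter Topology ModularForm
open scoped Manifold MatrixGroups

noncomputable section

namespace Fermat.Agent.X0Deg

open Fermat.Agent.JLevelOne Fermat.Agent.X0Emb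

local notation "𝕢" => Periodic.qParam

variable {h : ℝ} {f : ℍ → ℂ} {G : LaurentSeries ℂ}

theorem norm_q (h : ℝ) (τ : ℍ) : ‖𝕢 h (τ : ℂ)‖ = Real.exp (-2 * Real.pi * τ.im / h) := by
  rw [Periodic.norm_qParam]; rfl

theorem norm_q_pos (h : ℝ) (τ : ℍ) : 0 < ‖𝕢 h (τ : ℂ)‖ := norm_pos_iff.mpr (qParam_ne _ _)

theorem norm_q_anti (hh : 0 < h) {τ τ' : ℍ} (hτ : τ'.im ≤ τ.im) : ‖𝕢 h (τ : ℂ)‖ ≤ ‖𝕢 h (τ' : ℂ)‖ := by
  rw [norm_q, norm_q, Real.exp_le_exp]
  have : 0 < Real.pi := Real.pi_pos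
  rw [div_le_div_iff_of_pos_right hh]
  nlinarith

theorem LExp.exists_bound (hh : 0 < h) (hf : LExp h f G) :
    ∃ (M : ℕ) (C : ℝ), 0 ≤ C ∧ ∀ τ : ℍ, 1 ≤ τ.im → ‖f τ‖ * ‖𝕢 h (τ : ℂ)‖ ^ M ≤ C := by
  refine ⟨(-G.order).toNat, ?_⟩
  set M := (-G.order).toNat with hM
  have hm : ∀ n < -(M : ℤ), G.coeff n = 0 := by
    intro n hn
    by_cases hG : G = 0
    · rw [hG]; simp
    · exact HahnSeries.coeff_eq_zero_of_lt_order (by omega)
  have h1 := (hf.hasSum_nat hm UpperHalfPlane.I).summable.norm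
  refine ⟨∑' k : ℕ, ‖G.coeff (-(M : ℤ) + k) • 𝕢 h (UpperHalfPlane.I : ℍ) ^ k‖,
    tsum_nonneg fun k => norm_nonneg _, fun τ hτ => ?_⟩
  have h2 := hf.hasSum_nat hm τ
  have h3 : ‖f τ‖ * ‖𝕢 h (τ : ℂ)‖ ^ M = ‖𝕢 h (τ : ℂ) ^ (-(-(M : ℤ))) * f τ‖ := by
    rw [neg_neg, zpow_natCast, norm_mul, norm_pow, mul_comm]
  rw [h3, ← h2.tsum_eq]
  have h4 : ∀ k : ℕ, ‖G.coeff (-(M : ℤ) + k) • 𝕢 h (τ : ℂ) ^ k‖ ≤
      ‖G.coeff (-(M : ℤ) + k) • 𝕢 h (UpperHalfPlane.I : ℍ) ^ k‖ := by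
    intro k
    rw [norm_smul, norm_smul, norm_pow, norm_pow]
    refine mul_le_mul_of_nonneg_left ?_ (norm_nonneg _)
    exact pow_le_pow_left₀ (norm_nonneg _) (norm_q_anti hh (by simpa using hτ)) k
  refine (norm_tsum_le_tsum_norm h2.summable.norm).trans ?_
  exact Summable.tsum_le_tsum h4 h2.summable.norm h1

theorem exists_disc_bound : ∃ (A B : ℝ), 1 ≤ A ∧ ∀ τ : ℍ, A ≤ τ.im →
    ‖(discriminant τ : ℂ)‖ ≤ B * ‖𝕢 1 (τ : ℂ)‖ := by
  have h1 := tendsto_atImInfty_tprod_one_sub_eta_q_pow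
  have h2 := h1.norm
  rw [norm_one] at h2
  have h3 := h2.eventually (gt_mem_nhds (show (1 : ℝ) < 2 by norm_num))
  rw [atImInfty_basis.eventually_iff] at h3
  obtain ⟨A, -, hA⟩ := h3
  refine ⟨max A 1, 2, le_max_right _ _, fun τ hτ => ?_⟩
  have h4 := hA (show τ ∈ UpperHalfPlane.im ⁻¹' Set.Ici A from le_trans (le_max_left _ _) hτ)
  rw [discriminant_eq_q_prod, norm_mul, mul_comm]
  exact mul_le_mul_of_nonneg_right h4.le (norm_nonneg _)

/-- A function with a Laurent expansion becomes bounded after multiplication by a power of `Δ`. -/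
theorem exists_bdd_mul_disc {N : ℕ} [NeZero N] (hf : LExp N f G) :
    ∃ m : ℕ, IsBoundedAtImInfty (fun τ => f τ * discriminant τ ^ m) := by
  have hN : (0 : ℝ) < N := by exact_mod_cast Nat.pos_of_ne_zero (NeZero.ne N)
  have hN1 : (1 : ℝ) ≤ N := by exact_mod_cast Nat.one_le_iff_ne_zero.mpr (NeZero.ne N)
  obtain ⟨M, C, hC, hb⟩ := LExp.exists_bound hN hf
  obtain ⟨A, B, hA1, hAB⟩ := exists_disc_bound
  refine ⟨M, ?_⟩
  rw [isBoundedAtImInfty_iff]
  refine ⟨C * B ^ M, A, fun τ hτ => ?_⟩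
  have h1 := hb τ (hA1.trans hτ)
  have h2 := hAB τ hτ
  have hB : 0 ≤ B := by
    by_contra hB
    rw [not_le] at hB
    have := mul_neg_of_neg_of_pos hB (norm_q_pos 1 τ)
    linarith [norm_nonneg (discriminant τ : ℂ)]
  have h3 : ‖𝕢 1 (τ : ℂ)‖ ≤ ‖𝕢 N (τ : ℂ)‖ := by
    rw [norm_q, norm_q, Real.exp_le_exp, div_one]
    have h4 : 0 < 2 * Real.pi * τ.im := by positivity
    rw [show -2 * Real.pi * τ.im = -(2 * Real.pi * τ.im) by ring, neg_div, neg_le_neg_iff]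
    exact div_le_self h4.le hN1
  rw [norm_mul, norm_pow]
  calc ‖f τ‖ * ‖(discriminant τ : ℂ)‖ ^ M ≤ ‖f τ‖ * (B * ‖𝕢 N (τ : ℂ)‖) ^ M := by
        refine mul_le_mul_of_nonneg_left (pow_le_pow_left₀ (norm_nonneg _) (h2.trans ?_) M)
          (norm_nonneg _)
        exact mul_le_mul_of_nonneg_left h3 hB
    _ = (‖f τ‖ * ‖𝕢 N (τ : ℂ)‖ ^ M) * B ^ M := by rw [mul_pow]; ring
    _ ≤ C * B ^ M := mul_le_mul_of_nonneg_right h1 (pow_nonneg hB M)

/-- the function `j` as an element of `Hol` -/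
def jH : Hol := ⟨jFun, jFun_mdiff⟩

@[simp] theorem jH_apply (τ : ℍ) : jH τ = jFun τ := rfl

/-- An invariant holomorphic function with a Laurent expansion is a polynomial in `j`. -/
theorem exists_polynomial_of_lexp {N : ℕ} [NeZero N] {F : Hol} {G : LaurentSeries ℂ}
    (hG : LExp N F G) (hinv : ∀ g : SL(2, ℤ), g • F = F) :
    ∃ P : Polynomial ℂ, F = P.eval₂ constHol jH := by
  obtain ⟨m, hm⟩ := exists_bdd_mul_disc hG
  obtain ⟨P, -, hP⟩ := exists_polynomial_of_invariant m F F.2 (fun γ τ => by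
    have := congrArg (fun u : Hol => u τ) (hinv γ⁻¹)
    simpa using this) hm
  refine ⟨P, ?_⟩
  ext τ
  rw [hP τ]
  have h1 : ∀ P : Polynomial ℂ, (P.eval₂ constHol jH) τ = P.eval (jFun τ) := by
    intro P
    induction P using Polynomial.induction_on' with
    | add p q hp hq => simp [Polynomial.eval₂_add, hp, hq]
    | monomial n a => simp [Polynomial.eval₂_monomial]
  rw [h1]

end Fermat.Agent.X0Deg
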