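import Mathlib
import Fermat.Agent.X0Emb.Growth
import Fermat.Agent.X0Emb.DegreeAlg

/-! The degree of a function field of modular functions over `K(j)` (helper80). -/

set_option autoImplicit false

open UpperHalfPlane Complex Function Filter Topology ModularForm
open scoped Manifold MatrixGroups IntermediateField

noncomputable section

namespace Fermat.Agent.X0Deg

open Fermat.Agent.JLevelOne Fermat.Agent.X0Emb

/-- Embeddings of a ring of modular functions into holomorphic functions on the upper half plane,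
indexed by a transitive `SL(2, ℤ)`-set. -/
structure EmbData {K : Type*} [Field K] (F : IntermediateField K (LaurentSeries K))
    (X : Type*) [MulAction SL(2, ℤ) X] (N : ℕ) where
  ι : K →+* ℂ
  A : Subalgebra K F
  jA : A
  jA_coe : ModularCurve.coeffMap ι ((jA : F) : LaurentSeries K) = ModularCurve.jqModC ℂ
  frac : ∀ f : F, ∃ a b : A, b ≠ 0 ∧ f * (b : F) = a
  embA : X → A →+* Hol
  embA_const : ∀ x c, embA x (algebraMap K A c) = constHol (ι c)
  embA_j : ∀ x, embA x jA = jH
  embA_smul : ∀ (g : SL(2, ℤ)) x a, embA (g • x) a = g • embA x a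
  embA_lexp : ∀ x a, ∃ G : LaurentSeries ℂ, LExp N (embA x a) G
  embA_inj : ∀ x, Function.Injective (embA x)
  x0 : X
  embA_x0 : ∀ a : A, LExp 1 (embA x0 a) (ModularCurve.coeffMap ι ((a : F) : LaurentSeries K))
  inj : Function.Injective embA

/-- the ring of functions having a Laurent expansion -/
def LR (h : ℝ) : Subring Hol where
  carrier := {f | ∃ G, LExp h f G}
  mul_mem' := by rintro f g ⟨F, hF⟩ ⟨G, hG⟩; exact ⟨_, hF.mul hG⟩
  one_mem' := ⟨1, LExp.one h⟩
  add_mem' := by rintro f g ⟨F, hF⟩ ⟨G, hG⟩; exact ⟨_, hF.add hG⟩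
  zero_mem' := ⟨0, LExp.zero h⟩
  neg_mem' := by rintro f ⟨F, hF⟩; exact ⟨_, hF.neg⟩

namespace EmbData

variable {K : Type*} [Field K] {F : IntermediateField K (LaurentSeries K)}
  {X : Type*} [MulAction SL(2, ℤ) X] {N : ℕ} (D : EmbData F X N)

/-- the characteristic polynomial -/
def cp [Fintype X] (a : D.A) : Polynomial Hol := ∏ x, (Polynomial.X - Polynomial.C (D.embA x a))

theorem cp_monic [Fintype X] (a : D.A) : (D.cp a).Monic :=
  Polynomial.monic_prod_X_sub_C _ _

theorem cp_natDegree [Fintype X] (a : D.A) : (D.cp a).natDegree = Fintype.card X := by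
  rw [cp, Polynomial.natDegree_finsetProd_X_sub_C_eq_card, Finset.card_univ]

theorem cp_coeff_mem [Fintype X] (a : D.A) (i : ℕ) : (D.cp a).coeff i ∈ LR N := by
  have h1 : D.cp a = (∏ x, (Polynomial.X - Polynomial.C (⟨D.embA x a, D.embA_lexp x a⟩ : LR N))).map
      (LR (N : ℝ)).subtype := by
    rw [cp, Polynomial.map_prod]
    refine Finset.prod_congr rfl fun x _ => ?_
    simp
  rw [h1, Polynomial.coeff_map]
  exact Subtype.property _

theorem cp_coeff_smul [Fintype X] (a : D.A) (i : ℕ) (g : SL(2, ℤ)) :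
    g • (D.cp a).coeff i = (D.cp a).coeff i := by
  have h1 : (D.cp a).map (MulSemiringAction.toRingHom SL(2, ℤ) Hol g) = D.cp a := by
    rw [cp, Polynomial.map_prod]
    refine Fintype.prod_equiv (MulAction.toPerm g) _ _ fun x => ?_
    rw [Polynomial.map_sub, Polynomial.map_X, Polynomial.map_C, MulAction.toPerm_apply,
      D.embA_smul]
    rfl
  have h2 := congrArg (fun p => Polynomial.coeff p i) h1
  simpa [Polynomial.coeff_map] using h2

theorem exists_coeff [Fintype X] [NeZero N] (a : D.A) (i : ℕ) :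
    ∃ P : Polynomial ℂ, (D.cp a).coeff i = P.eval₂ constHol jH := by
  obtain ⟨G, hG⟩ := D.cp_coeff_mem a i
  exact exists_polynomial_of_lexp hG (D.cp_coeff_smul a i)

/-- `j` in the function field -/
abbrev jF : F := (D.jA : F)

theorem eval₂_jH_eq_zero {P : Polynomial ℂ} (h : P.eval₂ constHol jH = 0) : P = 0 := by
  have h1 : ∀ P : Polynomial ℂ, ∀ τ : ℍ, (P.eval₂ constHol jH) τ = P.eval (jFun τ) := by
    intro P τ
    induction P using Polynomial.induction_on' with
    | add p q hp hq => simp [Polynomial.eval₂_add, hp, hq]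
    | monomial n a => simp [Polynomial.eval₂_monomial]
  refine Polynomial.funext fun z => ?_
  obtain ⟨τ, rfl⟩ := jFun_surjective z
  rw [← h1, h]
  simp

theorem transcendental_jF : Transcendental K D.jF := by
  rw [transcendental_iff]
  intro p hp
  have h1 : Polynomial.aeval D.jA p = 0 := by
    have : ((Polynomial.aeval D.jA p : D.A) : F) = Polynomial.aeval (D.jA : F) p := by
      exact (Polynomial.aeval_algHom_apply (D.A.val) D.jA p).symm
    exact Subtype.ext (this.trans hp)
  have h2 : (p.map D.ι).eval₂ constHol jH = 0 := by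
    rw [Polynomial.eval₂_map, ← D.embA_j D.x0]
    have h3 : (constHol.comp D.ι) = (D.embA D.x0).comp (algebraMap K D.A) := by
      ext1 c
      exact (D.embA_const D.x0 c).symm
    rw [h3, ← Polynomial.hom_eval₂]
    rw [Polynomial.aeval_def] at h1
    rw [h1, map_zero]
  have h3 := eval₂_jH_eq_zero h2
  exact (Polynomial.map_eq_zero D.ι).mp h3

theorem lexp_sum {I : Type*} [Fintype I] {h : ℝ} (c : I → ℂ) (f : I → Hol) (G : I → LaurentSeries ℂ)
    (hf : ∀ i, LExp h (f i) (G i)) :
    LExp h ((∑ i, constHol (c i) * f i : Hol) : ℍ → ℂ) (∑ i, c i • G i) := by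
  classical
  have key : ∀ s : Finset I, LExp h ((∑ i ∈ s, constHol (c i) * f i : Hol) : ℍ → ℂ)
      (∑ i ∈ s, c i • G i) := by
    intro s
    induction s using Finset.induction_on with
    | empty => simpa using! LExp.zero h
    | insert i s hi ih =>
      rw [Finset.sum_insert hi, Finset.sum_insert hi]
      have h1 := (LExp.const h (c i)).mul (hf i)
      have h2 : HahnSeries.C (c i) * G i = c i • G i := by
        rw [HahnSeries.C_mul_eq_smul]
      rw [h2] at h1
      exact h1.add ih
  exact key _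

theorem exists_relation_jF [Fintype X] [NeZero N] (a : D.A) :
    ∃ (m : ℕ) (d : Fin (Fintype.card X + 1) × Fin (m + 1) → K), (∃ i, d i ≠ 0) ∧
      ∑ i, algebraMap K F (d i) * (D.jF ^ (i.2 : ℕ) * (a : F) ^ (i.1 : ℕ)) = 0 := by
  classical
  choose P hP using fun i => D.exists_coeff a i
  set n := Fintype.card X with hn
  let m := Finset.univ.sup fun i : Fin (n + 1) => (P i).natDegree
  have hm : ∀ i : Fin (n + 1), (P i).natDegree < m + 1 := fun i =>
    Nat.lt_succ_of_le (Finset.le_sup (f := fun i : Fin (n + 1) => (P i).natDegree)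
      (Finset.mem_univ i))
  have h1 : (D.cp a).eval (D.embA D.x0 a) = 0 := by
    rw [cp, Polynomial.eval_prod]
    exact Finset.prod_eq_zero (Finset.mem_univ D.x0) (by simp)
  rw [Polynomial.eval_eq_sum_range' (n := n + 1) (by rw [D.cp_natDegree]; omega)] at h1
  rw [← Fin.sum_univ_eq_sum_range
    (fun i => (D.cp a).coeff i * (D.embA D.x0 a) ^ i)] at h1
  have h2 : ∑ i : Fin (n + 1) × Fin (m + 1), constHol ((P i.1).coeff i.2) *
      (D.embA D.x0 (D.jA ^ (i.2 : ℕ) * a ^ (i.1 : ℕ))) = 0 := by
    rw [Fintype.sum_prod_type, ← h1]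
    refine Finset.sum_congr rfl fun i _ => ?_
    rw [hP i, Polynomial.eval₂_eq_sum_range' constHol (hm i), ← Fin.sum_univ_eq_sum_range
      (fun k => constHol ((P i).coeff k) * jH ^ k), Finset.sum_mul]
    refine Finset.sum_congr rfl fun k _ => ?_
    rw [map_mul, map_pow, map_pow, D.embA_j]
    ring
  have h3 := lexp_sum (h := 1) (fun i : Fin (n + 1) × Fin (m + 1) => (P i.1).coeff i.2)
    (fun i => D.embA D.x0 (D.jA ^ (i.2 : ℕ) * a ^ (i.1 : ℕ))) _ (fun i => D.embA_x0 _)
  rw [h2] at h3
  have h4 := h3.eq_zero one_pos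
  obtain ⟨d, hd0, hd, -⟩ := exists_relation D.ι
    (fun i : Fin (n + 1) × Fin (m + 1) => (((D.jA ^ (i.2 : ℕ) * a ^ (i.1 : ℕ) : D.A) : F) :
      LaurentSeries K)) (fun i => (P i.1).coeff i.2) (by
      by_contra hcon
      push Not at hcon
      have h5 : P n = 0 := by
        ext k
        by_cases hk : k < m + 1
        · exact hcon (⟨n, by omega⟩, ⟨k, hk⟩)
        · rw [Polynomial.coeff_zero]
          exact Polynomial.coeff_eq_zero_of_natDegree_lt (by
            have := hm ⟨n, by omega⟩
            dsimp only at this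
            omega)
      have h6 := hP n
      rw [h5, Polynomial.eval₂_zero] at h6
      have h7 := (D.cp_monic a).coeff_natDegree
      rw [D.cp_natDegree, ← hn, h6] at h7
      exact zero_ne_one h7) h4
  refine ⟨m, d, hd0, ?_⟩
  apply Subtype.ext
  rw [AddSubmonoidClass.coe_finsetSum]
  refine Eq.trans (Finset.sum_congr rfl fun i _ => ?_) hd
  rw [MulMemClass.coe_mul]
  change algebraMap K (LaurentSeries K) (d i) * _ = _
  rw [ModularCurve.algebraMap_laurentSeries_eq_single, HahnSeries.single_zero_mul_eq_smul]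
  rfl

theorem isIntegral_and_natDegree_le [Fintype X] [NeZero N] (a : D.A) :
    IsIntegral K⟮D.jF⟯ (a : F) ∧
      (minpoly K⟮D.jF⟯ (a : F)).natDegree ≤ Fintype.card X := by
  obtain ⟨m, d, h0, hd⟩ := D.exists_relation_jF a
  exact isIntegral_of_relation D.transcendental_jF (a : F) d h0 hd

theorem upper [Fintype X] [NeZero N] [CharZero K] :
    FiniteDimensional K⟮D.jF⟯ F ∧ Module.finrank K⟮D.jF⟯ F ≤ Fintype.card X := by
  refine finite_of_subring K⟮D.jF⟯ D.A.toSubring (Fintype.card X)
    (exists_frac_of_mem_adjoin D.A D.jA.2) ?_ ?_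
  · intro θ
    obtain ⟨a, b, hb, h⟩ := D.frac θ
    exact ⟨a, b, a.2, b.2, fun h0 => hb (Subtype.ext h0), h⟩
  · intro a ha
    exact D.isIntegral_and_natDegree_le ⟨a, ha⟩

end EmbData

end Fermat.Agent.X0Deg
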