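import Mathlib
import Fermat.Prelude.Def_ModularCurve_ArithmeticGalois
import Fermat.Prelude.Thm_ModularCurve_coeffMap_qExpand
import Fermat.Prelude.Thm_ModularCurve_coeff_jqModC_neg_one
import Fermat.Prelude.Thm_ModularCurve_coeff_jqModC_pow_of_lt
import Fermat.Agent.X0Emb.LExp
import Fermat.Agent.X0Emb.JExp
import Fermat.Agent.X0Emb.Hol
import Fermat.Agent.X0Emb.Hermite

set_option autoImplicit false

open UpperHalfPlane Complex Function Filter Topology ModularForm ModularCurve
open scoped Manifold MatrixGroups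

noncomputable section

namespace Fermat.Agent.X0Emb

open Fermat.Agent.JLevelOne

local notation "𝕢" => Periodic.qParam

/-- algebraic numbers -/
abbrev KK : Type := AlgebraicClosure ℚ

/-- the function field of `X₀(N)` over `ℚ̄` -/
abbrev FF (N : ℕ) : IntermediateField KK (LaurentSeries KK) := modularFunctionFieldBar N

abbrev XX (N : ℕ) : Type := SL(2, ℤ) ⧸ CongruenceSubgroup.Gamma0 N

/-- a fixed embedding of the algebraic numbers into `ℂ`. -/
def iota : KK →+* ℂ :=
  haveI : Algebra.IsAlgebraic ℚ KK := AlgebraicClosure.isAlgebraic ℚ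
  (IsAlgClosed.lift (R := ℚ) (S := KK) (M := ℂ)).toRingHom

theorem iota_injective : Function.Injective iota := iota.injective

theorem coeffMap_injective {R S : Type*} [CommRing R] [CommRing S] {φ : R →+* S}
    (hφ : Function.Injective φ) : Function.Injective (coeffMap φ) := by
  intro x y h
  ext k
  apply hφ
  have := congrArg (fun z : LaurentSeries S ↦ z.coeff k) h
  simpa using this

/-- the `q`-expansions of `j (d τ)`, `d ∣ N`. -/
def Dset (N : ℕ) : Set (LaurentSeries KK) :=
  {x | ∃ (d : ℕ) (_ : NeZero d), d ∣ N ∧ x = qExpand KK d (jqModC KK)}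

theorem coeffEmb_eq (d : ℕ) [NeZero d] :
    coeffEmb KK (qExpand ℚ d jq) = qExpand KK d (jqModC KK) := by
  rw [coeffEmb, ModularCurve.coeffMap_qExpand, coeffMap_jq]

theorem FF_eq (N : ℕ) : FF N = IntermediateField.adjoin KK (Dset N) := by
  apply le_antisymm
  · unfold FF modularFunctionFieldBar laurentBaseChange
    rw [IntermediateField.adjoin_le_iff]
    rintro _ ⟨y, hy, rfl⟩
    rw [SetLike.mem_coe] at hy ⊢
    unfold modularFunctionFieldFull at hy
    induction hy using IntermediateField.adjoin_induction with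
    | mem y hy =>
      obtain ⟨d, hne, hd, rfl⟩ := hy
      rw [coeffEmb_eq]
      exact IntermediateField.subset_adjoin _ _ ⟨d, hne, hd, rfl⟩
    | algebraMap c =>
      have : coeffEmb KK (algebraMap ℚ (LaurentSeries ℚ) c) =
          algebraMap KK (LaurentSeries KK) (algebraMap ℚ KK c) := by
        rw [algebraMap_laurentSeries_eq_single, algebraMap_laurentSeries_eq_single, coeffEmb,
          coeffMap_single]
      rw [this]
      exact IntermediateField.algebraMap_mem _ _
    | add x y _ _ hx hy => rw [map_add]; exact add_mem hx hy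
    | inv x _ hx => rw [map_inv₀]; exact inv_mem hx
    | mul x y _ _ hx hy => rw [map_mul]; exact mul_mem hx hy
  · rw [IntermediateField.adjoin_le_iff]
    rintro _ ⟨d, hne, hd, rfl⟩
    rw [← coeffEmb_eq]
    exact coeffEmb_mem_laurentBaseChange KK (jqd_mem_full N hd)

/-- the ring `K[j(dτ) : d ∣ N]`, as a subalgebra of the function field. -/
def AA (N : ℕ) : Subalgebra KK (FF N) := (Algebra.adjoin KK (Dset N)).comap (FF N).val

theorem mem_AA {N : ℕ} {f : FF N} : f ∈ AA N ↔ (f : LaurentSeries KK) ∈ Algebra.adjoin KK (Dset N) :=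
  Iff.rfl

theorem exists_div (N : ℕ) (f : FF N) : ∃ a b : AA N, f = (a : FF N) / (b : FF N) := by
  have hf : (f : LaurentSeries KK) ∈ IntermediateField.adjoin KK (Dset N) := by
    rw [← FF_eq]; exact f.2
  rw [IntermediateField.mem_adjoin_iff_div] at hf
  obtain ⟨a, ha, b, hb, hab⟩ := hf
  have hle : Algebra.adjoin KK (Dset N) ≤ (FF N).toSubalgebra := by
    rw [FF_eq]; exact IntermediateField.algebra_adjoin_le_adjoin _ _
  refine ⟨⟨⟨a, hle ha⟩, ha⟩, ⟨⟨b, hle hb⟩, hb⟩, ?_⟩
  apply Subtype.ext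
  simpa using hab

instance (N : ℕ) : IsFractionRing (AA N) (FF N) :=
  IsFractionRing.of_field (AA N) (FF N) fun z ↦ by
    obtain ⟨a, b, h⟩ := exists_div N z
    exact ⟨a, b, h⟩


/-! ### evaluation of `q`-series as functions -/

theorem coeffMap_iota_jqd (d : ℕ) [NeZero d] :
    coeffMap iota (qExpand KK d (jqModC KK)) = qExpand ℂ d (jqModC ℂ) := by
  rw [ModularCurve.coeffMap_qExpand]
  congr 1
  exact map_jqModC iota

/-- `j` as element of `Hol`. -/
def jHol : Hol := ⟨jFun, jFun_mdiff⟩

@[simp] theorem jHol_apply (τ : ℍ) : jHol τ = jFun τ := rfl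

theorem aff_mdiff (a b d : ℕ) [NeZero a] [NeZero d] {f : ℍ → ℂ} (hf : MDiff f) :
    MDiff (fun τ ↦ f (aff a b d τ)) := by
  rw [UpperHalfPlane.mdifferentiable_iff] at hf ⊢
  have h1 : DifferentiableOn ℂ (fun z : ℂ ↦ ((a : ℂ) * z + b) / d) upperHalfPlaneSet := by fun_prop
  have h2 : Set.MapsTo (fun z : ℂ ↦ ((a : ℂ) * z + b) / d) upperHalfPlaneSet upperHalfPlaneSet := by
    intro z hz
    exact (aff a b d ⟨z, hz⟩).im_pos
  refine (hf.comp h1 h2).congr fun z hz ↦ ?_
  simp only [Function.comp, ofComplex_apply_of_im_pos hz]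
  rw [ofComplex_apply_of_im_pos (h2 hz)]
  rfl

/-- `τ ↦ j ((a τ + b) / d)` as element of `Hol`. -/
def jAff (a b d : ℕ) [NeZero a] [NeZero d] : Hol :=
  ⟨fun τ ↦ jFun (aff a b d τ), aff_mdiff a b d jFun_mdiff⟩

@[simp] theorem jAff_apply (a b d : ℕ) [NeZero a] [NeZero d] (τ : ℍ) :
    jAff a b d τ = jFun (aff a b d τ) := rfl

theorem lexp_jAff (a b d e N : ℕ) [NeZero a] [NeZero d] [NeZero e] [NeZero N]
    (hed : e * d = a * N) :
    LExp N (jAff a b d) (qExpand ℂ e (twist (zetaU b d) (jqModC ℂ))) :=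
  lexp_jFun.aff a b d e N hed

theorem twist_one {R : Type*} [CommRing R] (G : LaurentSeries R) : twist 1 G = G := by
  ext n; simp

theorem zetaU_zero (d : ℕ) : zetaU 0 d = 1 := by
  ext; simp [zetaU]

theorem lexp_jAff_one (d : ℕ) [NeZero d] :
    LExp 1 (jAff d 0 1) (coeffMap iota (qExpand KK d (jqModC KK))) := by
  have := lexp_jAff d 0 1 d 1 (by simp)
  rw [zetaU_zero, twist_one] at this
  rw [coeffMap_iota_jqd]
  simpa using this

theorem coeffMap_algebraMap_iota (c : KK) :
    coeffMap iota (algebraMap KK (LaurentSeries KK) c) = HahnSeries.C (iota c) := by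
  rw [algebraMap_laurentSeries_eq_single, coeffMap_single]
  rfl

/-- The holomorphic functions with a Laurent expansion in `exp (2 π i τ / h)`. -/
theorem exists_ev {N : ℕ} (f : LaurentSeries KK) (hf : f ∈ Algebra.adjoin KK (Dset N)) :
    ∃ g : Hol, LExp 1 g (coeffMap iota f) := by
  induction hf using Algebra.adjoin_induction with
  | mem y hy =>
    obtain ⟨d, hne, hd, rfl⟩ := hy
    exact ⟨jAff d 0 1, lexp_jAff_one d⟩
  | algebraMap c =>
    refine ⟨constHol (iota c), ?_⟩
    rw [coeffMap_algebraMap_iota]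
    exact LExp.const 1 _
  | add x y _ _ hx hy =>
    obtain ⟨g, hg⟩ := hx
    obtain ⟨h, hh⟩ := hy
    exact ⟨g + h, by rw [map_add]; exact hg.add hh⟩
  | mul x y _ _ hx hy =>
    obtain ⟨g, hg⟩ := hx
    obtain ⟨h, hh⟩ := hy
    exact ⟨g * h, by rw [map_mul]; exact hg.mul hh⟩

theorem lexp_hol_unique {h : ℝ} {f g : Hol} {G : LaurentSeries ℂ} (hf : LExp h f G)
    (hg : LExp h g G) : f = g := Subtype.ext (hf.funext hg)

/-- evaluation of elements of `AA N` as holomorphic functions. -/
def evFun (N : ℕ) (f : AA N) : Hol := (exists_ev (N := N) ((f : FF N) : LaurentSeries KK) f.2).choose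

theorem lexp_evFun {N : ℕ} (f : AA N) :
    LExp 1 (evFun N f) (coeffMap iota ((f : FF N) : LaurentSeries KK)) :=
  (exists_ev (N := N) ((f : FF N) : LaurentSeries KK) f.2).choose_spec

/-- evaluation of elements of `AA N` as holomorphic functions. -/
def ev (N : ℕ) : AA N →+* Hol where
  toFun f := evFun N f
  map_one' := lexp_hol_unique (lexp_evFun 1) (by simpa using! LExp.one 1)
  map_zero' := lexp_hol_unique (lexp_evFun 0) (by simpa using! LExp.zero 1)
  map_add' f g := lexp_hol_unique (lexp_evFun (f + g)) (by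
    have := (lexp_evFun f).add (lexp_evFun g)
    rw [← map_add] at this
    exact this)
  map_mul' f g := lexp_hol_unique (lexp_evFun (f * g)) (by
    have := (lexp_evFun f).mul (lexp_evFun g)
    rw [← map_mul] at this
    exact this)

theorem lexp_ev {N : ℕ} (f : AA N) : LExp 1 (ev N f) (coeffMap iota ((f : FF N) : LaurentSeries KK)) :=
  lexp_evFun f

theorem ev_injective (N : ℕ) : Function.Injective (ev N) := by
  intro f g hfg
  have h1 := lexp_ev f
  rw [hfg] at h1
  have h2 := h1.unique one_pos (lexp_ev g)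
  exact Subtype.ext (Subtype.ext (coeffMap_injective iota_injective h2))

theorem ev_eq_of_lexp {N : ℕ} {f : AA N} {g : Hol}
    (h : LExp 1 g (coeffMap iota ((f : FF N) : LaurentSeries KK))) : ev N f = g :=
  lexp_hol_unique (lexp_ev f) h

/-- the element `j (d τ)` of `AA N`. -/
def jdA (N d : ℕ) [NeZero d] (hd : d ∣ N) : AA N :=
  ⟨⟨qExpand KK d (jqModC KK), by
    have := coeffEmb_mem_laurentBaseChange KK (jqd_mem_full N hd)
    rwa [coeffEmb_eq] at this⟩, Algebra.subset_adjoin ⟨d, ‹_›, hd, rfl⟩⟩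

theorem ev_jdA (N d : ℕ) [NeZero d] (hd : d ∣ N) : ev N (jdA N d hd) = jAff d 0 1 :=
  ev_eq_of_lexp (lexp_jAff_one d)

theorem ev_algebraMap (N : ℕ) (c : KK) : ev N (algebraMap KK (AA N) c) = constHol (iota c) := by
  apply ev_eq_of_lexp
  have := LExp.const 1 (iota c)
  rw [← coeffMap_algebraMap_iota] at this
  exact this

theorem adjoin_Dset_le (N : ℕ) {f : LaurentSeries KK} (hf : f ∈ Algebra.adjoin KK (Dset N)) :
    f ∈ FF N := by
  rw [FF_eq]; exact IntermediateField.algebra_adjoin_le_adjoin _ _ hf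

/-- constructor for `AA N` -/
def mkAA (N : ℕ) (f : LaurentSeries KK) (hf : f ∈ Algebra.adjoin KK (Dset N)) : AA N :=
  ⟨⟨f, adjoin_Dset_le N hf⟩, hf⟩

@[simp] theorem coe_mkAA (N : ℕ) (f : LaurentSeries KK) (hf : f ∈ Algebra.adjoin KK (Dset N)) :
    ((mkAA N f hf : FF N) : LaurentSeries KK) = f := rfl

theorem AA_ext {N : ℕ} {f g : AA N}
    (h : ((f : FF N) : LaurentSeries KK) = ((g : FF N) : LaurentSeries KK)) : f = g :=
  Subtype.ext (Subtype.ext h)

theorem mkAA_add (N : ℕ) (f g : LaurentSeries KK) (hf : f ∈ Algebra.adjoin KK (Dset N))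
    (hg : g ∈ Algebra.adjoin KK (Dset N)) (hfg : f + g ∈ Algebra.adjoin KK (Dset N)) :
    mkAA N (f + g) hfg = mkAA N f hf + mkAA N g hg := AA_ext (by simp)

theorem mkAA_mul (N : ℕ) (f g : LaurentSeries KK) (hf : f ∈ Algebra.adjoin KK (Dset N))
    (hg : g ∈ Algebra.adjoin KK (Dset N)) (hfg : f * g ∈ Algebra.adjoin KK (Dset N)) :
    mkAA N (f * g) hfg = mkAA N f hf * mkAA N g hg := AA_ext (by simp)

/-- induction principle for `AA N` -/
theorem AA_induction {N : ℕ} {p : AA N → Prop}
    (hj : ∀ (d : ℕ) [NeZero d] (hd : d ∣ N), p (jdA N d hd))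
    (hc : ∀ c : KK, p (algebraMap KK (AA N) c))
    (hadd : ∀ f g, p f → p g → p (f + g)) (hmul : ∀ f g, p f → p g → p (f * g)) (f : AA N) : p f := by
  have key : ∀ (f : LaurentSeries KK) (hf : f ∈ Algebra.adjoin KK (Dset N)), p (mkAA N f hf) := by
    intro f hf
    induction hf using Algebra.adjoin_induction with
    | mem y hy =>
      obtain ⟨d, hne, hd, rfl⟩ := hy
      exact hj d hd
    | algebraMap c =>
      have : mkAA N (algebraMap KK _ c) (Subalgebra.algebraMap_mem _ c) = algebraMap KK (AA N) c :=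
        AA_ext rfl
      rw [this]; exact hc c
    | add x y hx hy hx' hy' => rw [mkAA_add N x y hx hy]; exact hadd _ _ hx' hy'
    | mul x y hx hy hx' hy' => rw [mkAA_mul N x y hx hy]; exact hmul _ _ hx' hy'
  exact key ((f : FF N) : LaurentSeries KK) f.2

/-- `Γ₀(N)`-invariance of the functions in `AA N`. -/
theorem smul_ev {N : ℕ} {γ : SL(2, ℤ)} (hγ : γ ∈ CongruenceSubgroup.Gamma0 N) (f : AA N) :
    γ • ev N f = ev N f := by
  induction f using AA_induction with
  | hj d hd =>
    rw [ev_jdA]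
    obtain ⟨g', hg'⟩ := exists_aff_smul_of_mem_Gamma0 N d hd γ⁻¹ (inv_mem hγ)
    ext τ
    rw [Hol.smul_apply, jAff_apply, jAff_apply, hg', jFun_smul]
  | hc c => rw [ev_algebraMap, smul_constHol]
  | hadd f g hf hg => rw [map_add, smul_add, hf, hg]
  | hmul f g hf hg => rw [map_mul, smul_mul', hf, hg]

/-- The embedding of `AA N` into `Hol` attached to a coset. -/
def embA {N : ℕ} (x : XX N) : AA N →+* Hol :=
  (MulSemiringAction.toRingHom SL(2, ℤ) Hol x.out).comp (ev N)

theorem embA_mk {N : ℕ} (g : SL(2, ℤ)) (f : AA N) :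
    embA (QuotientGroup.mk g : XX N) f = g • ev N f := by
  obtain ⟨h, hh⟩ := QuotientGroup.mk_out_eq_mul (CongruenceSubgroup.Gamma0 N) g
  change (QuotientGroup.mk g : XX N).out • ev N f = _
  rw [hh, mul_smul, smul_ev h.2]

theorem embA_smul {N : ℕ} (g : SL(2, ℤ)) (x : XX N) (f : AA N) :
    embA (g • x) f = g • embA x f := by
  induction x using QuotientGroup.induction_on with
  | H h =>
    have : g • (QuotientGroup.mk h : XX N) = QuotientGroup.mk (g * h) := rfl
    rw [this, embA_mk, embA_mk, mul_smul]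

theorem smul_injective_hol (g : SL(2, ℤ)) : Function.Injective (fun f : Hol ↦ g • f) :=
  MulAction.injective g

theorem embA_injective {N : ℕ} (x : XX N) : Function.Injective (embA x) :=
  (smul_injective_hol x.out).comp (ev_injective N)

theorem embA_algebraMap {N : ℕ} (x : XX N) (c : KK) :
    embA x (algebraMap KK (AA N) c) = constHol (iota c) := by
  induction x using QuotientGroup.induction_on with
  | H h => rw [embA_mk, ev_algebraMap, smul_constHol]

/-- `j` as an element of `AA N` -/
def jA (N : ℕ) : AA N := jdA N 1 (one_dvd N)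

theorem aff_one (τ : ℍ) : aff 1 0 1 τ = τ := by
  ext1; simp

theorem ev_jA (N : ℕ) : ev N (jA N) = jHol := by
  rw [jA, ev_jdA]
  ext τ
  rw [jAff_apply, jHol_apply, aff_one]

theorem smul_jHol (g : SL(2, ℤ)) : g • jHol = jHol := by
  ext τ
  rw [Hol.smul_apply, jHol_apply, jHol_apply, jFun_smul]

theorem embA_jA {N : ℕ} (x : XX N) : embA x (jA N) = jHol := by
  induction x using QuotientGroup.induction_on with
  | H h => rw [embA_mk, ev_jA, smul_jHol]


/-! ### expansions at infinity of the conjugates -/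

theorem exists_zetaK (b d : ℕ) [NeZero d] : ∃ z : KKˣ, Units.map (iota : KK →* ℂ) z = zetaU b d := by
  obtain ⟨ω, hω⟩ := HasEnoughRootsOfUnity.exists_primitiveRoot KK d
  have hω' : IsPrimitiveRoot (iota ω) d := hω.map_of_injective iota_injective
  have hz : ((zetaU b d : ℂˣ) : ℂ) ^ d = 1 := by
    rw [zetaU, Units.val_mk0, ← Complex.exp_nat_mul]
    have hd : (d : ℂ) ≠ 0 := by exact_mod_cast NeZero.ne d
    rw [show (d : ℂ) * (2 * Real.pi * Complex.I * b / d) = (b : ℂ) * (2 * Real.pi * Complex.I) by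
      field_simp]
    exact Complex.exp_nat_mul_two_pi_mul_I b
  obtain ⟨i, -, hi⟩ := hω'.eq_pow_of_pow_eq_one hz
  have hω0 : ω ≠ 0 := hω.ne_zero (NeZero.ne d)
  refine ⟨Units.mk0 ω hω0 ^ i, ?_⟩
  ext
  simp [← hi]

theorem smul_jAff_eq (d : ℕ) [NeZero d] (g : SL(2, ℤ)) :
    ∃ (a b d' : ℕ) (_ : NeZero a) (_ : NeZero d'), a * d' = d ∧ b < d' ∧
      g • jAff d 0 1 = jAff a b d' := by
  obtain ⟨a, b, d', ha, hd', g', h1, h2, h3⟩ := exists_hermite d g⁻¹
  refine ⟨a, b, d', ha, hd', h1, h2, ?_⟩
  ext τ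
  rw [Hol.smul_apply, jAff_apply, jAff_apply, h3, jFun_smul]

theorem lexp_jAff_K (a b d e N : ℕ) [NeZero a] [NeZero d] [NeZero e] [NeZero N]
    (hed : e * d = a * N) (z : KKˣ) (hz : Units.map (iota : KK →* ℂ) z = zetaU b d) :
    LExp N (jAff a b d) (coeffMap iota (qExpand KK e (twist z (jqModC KK)))) := by
  have := lexp_jAff a b d e N hed
  rw [ModularCurve.coeffMap_qExpand, twist_coeffMap]
  have h1 : coeffMap iota (jqModC KK) = jqModC ℂ := map_jqModC iota
  rw [h1]
  rw [← hz] at this
  exact this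

theorem exists_exp {N : ℕ} [NeZero N] (g : SL(2, ℤ)) (f : AA N) :
    ∃ G : LaurentSeries KK, LExp N (g • ev N f : Hol) (coeffMap iota G) := by
  induction f using AA_induction with
  | hj d hd =>
    rw [ev_jdA]
    obtain ⟨a, b, d', ha, hd', h1, h2, h3⟩ := smul_jAff_eq d g
    rw [h3]
    obtain ⟨z, hz⟩ := exists_zetaK b d'
    have hd'N : d' ∣ N := (Dvd.intro_left a h1).trans hd
    have hN : N / d' ≠ 0 := (Nat.div_pos (Nat.le_of_dvd (Nat.pos_of_ne_zero (NeZero.ne N)) hd'N)
      (Nat.pos_of_ne_zero (NeZero.ne d'))).ne'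
    have : NeZero (a * (N / d')) := ⟨Nat.mul_ne_zero (NeZero.ne a) hN⟩
    exact ⟨_, lexp_jAff_K a b d' (a * (N / d')) N (by
      rw [mul_assoc, Nat.div_mul_cancel hd'N]) z hz⟩
  | hc c =>
    refine ⟨algebraMap KK (LaurentSeries KK) c, ?_⟩
    rw [ev_algebraMap, smul_constHol, coeffMap_algebraMap_iota]
    exact LExp.const N _
  | hadd f g hf hg =>
    obtain ⟨F, hF⟩ := hf
    obtain ⟨G, hG⟩ := hg
    exact ⟨F + G, by rw [map_add, smul_add, map_add]; exact hF.add hG⟩
  | hmul f g hf hg =>
    obtain ⟨F, hF⟩ := hf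
    obtain ⟨G, hG⟩ := hg
    exact ⟨F * G, by rw [map_mul, smul_mul', map_mul]; exact hF.mul hG⟩

theorem exists_exp' {N : ℕ} [NeZero N] (x : XX N) (f : AA N) :
    ∃ G : LaurentSeries KK, LExp N (embA x f) (coeffMap iota G) := by
  induction x using QuotientGroup.induction_on with
  | H h => rw [embA_mk]; exact exists_exp h f

theorem natCast_pos_real (N : ℕ) [NeZero N] : (0 : ℝ) < N := by
  exact_mod_cast Nat.pos_of_ne_zero (NeZero.ne N)

theorem lexp_K_unique {N : ℕ} [NeZero N] {f : ℍ → ℂ} {F G : LaurentSeries KK}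
    (hF : LExp N f (coeffMap iota F)) (hG : LExp N f (coeffMap iota G)) : F = G :=
  coeffMap_injective iota_injective (hF.unique (natCast_pos_real N) hG)

/-- expansion at infinity of `embA x f`. -/
def expFun {N : ℕ} [NeZero N] (x : XX N) (f : AA N) : LaurentSeries KK := (exists_exp' x f).choose

theorem lexp_expFun {N : ℕ} [NeZero N] (x : XX N) (f : AA N) :
    LExp N (embA x f) (coeffMap iota (expFun x f)) := (exists_exp' x f).choose_spec

/-- expansion at infinity of `embA x f`, as ring homomorphism. -/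
def embInfA {N : ℕ} [NeZero N] (x : XX N) : AA N →+* LaurentSeries KK where
  toFun f := expFun x f
  map_one' := lexp_K_unique (lexp_expFun x 1) (by
    rw [map_one, map_one]; exact LExp.one N)
  map_zero' := lexp_K_unique (lexp_expFun x 0) (by
    rw [map_zero, map_zero]; exact LExp.zero N)
  map_add' f g := lexp_K_unique (lexp_expFun x (f + g)) (by
    rw [map_add, map_add]; exact (lexp_expFun x f).add (lexp_expFun x g))
  map_mul' f g := lexp_K_unique (lexp_expFun x (f * g)) (by
    rw [map_mul, map_mul]; exact (lexp_expFun x f).mul (lexp_expFun x g))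

theorem lexp_embInfA {N : ℕ} [NeZero N] (x : XX N) (f : AA N) :
    LExp N (embA x f) (coeffMap iota (embInfA x f)) := lexp_expFun x f

theorem embInfA_injective {N : ℕ} [NeZero N] (x : XX N) : Function.Injective (embInfA x) := by
  rw [injective_iff_map_eq_zero]
  intro f hf
  have h1 := lexp_embInfA x f
  rw [hf, map_zero] at h1
  have h2 : embA x f = 0 := lexp_hol_unique h1 (LExp.zero N)
  exact (injective_iff_map_eq_zero _).mp (embA_injective x) f h2

/-- the embedding of the function field at infinity -/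
def embInf {N : ℕ} [NeZero N] (x : XX N) : FF N →+* LaurentSeries KK :=
  IsFractionRing.lift (A := AA N) (embInfA_injective x)

theorem embInf_coe {N : ℕ} [NeZero N] (x : XX N) (f : AA N) :
    embInf x (f : FF N) = embInfA x f :=
  IsFractionRing.lift_algebraMap (embInfA_injective x) f

theorem algebraMap_embA_injective {N : ℕ} (x : XX N) :
    Function.Injective ((algebraMap Hol MerH).comp (embA x)) :=
  (IsFractionRing.injective Hol MerH).comp (embA_injective x)

/-- the embedding of the function field into meromorphic functions attached to a coset -/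
def emb {N : ℕ} (x : XX N) : FF N →+* MerH :=
  IsFractionRing.lift (A := AA N) (algebraMap_embA_injective x)

theorem emb_coe {N : ℕ} (x : XX N) (f : AA N) :
    emb x (f : FF N) = algebraMap Hol MerH (embA x f) :=
  IsFractionRing.lift_algebraMap (algebraMap_embA_injective x) f

theorem emb_smul {N : ℕ} (g : SL(2, ℤ)) (x : XX N) (f : FF N) :
    emb (g • x) f = g • emb x f := by
  obtain ⟨a, b, rfl⟩ := exists_div N f
  rw [map_div₀, map_div₀, smul_div₀', emb_coe, emb_coe, emb_coe, emb_coe, embA_smul, embA_smul,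
    smul_algebraMap_merH, smul_algebraMap_merH]

theorem emb_algebraMap {N : ℕ} (x : XX N) (c : KK) :
    emb x (algebraMap KK (FF N) c) = algebraMap Hol MerH (constHol (iota c)) := by
  rw [IsScalarTower.algebraMap_apply KK (AA N) (FF N)]
  exact (emb_coe x _).trans (by rw [embA_algebraMap])

theorem embInf_algebraMap {N : ℕ} [NeZero N] (x : XX N) (c : KK) :
    embInf x (algebraMap KK (FF N) c) = algebraMap KK (LaurentSeries KK) c := by
  rw [IsScalarTower.algebraMap_apply KK (AA N) (FF N)]
  refine (embInf_coe x _).trans ?_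
  apply lexp_K_unique (lexp_embInfA x _)
  rw [embA_algebraMap, coeffMap_algebraMap_iota]
  exact LExp.const N _

/-- the element `j` of the function field -/
def jF (N : ℕ) : FF N := (jA N : FF N)

theorem coe_jF (N : ℕ) : ((jF N : FF N) : LaurentSeries KK) = jqModC KK := by
  change qExpand KK 1 (jqModC KK) = jqModC KK
  exact qExpand_one_apply _

theorem emb_jF {N : ℕ} (x : XX N) : emb x (jF N) = algebraMap Hol MerH jHol := by
  rw [jF, emb_coe, embA_jA]


/-! ### the action of `T` at infinity -/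

theorem twist_coe_injective {R : Type*} [CommRing R] [IsDomain R] (c : Rˣ) :
    Function.Injective (twist (R := R) c) := by
  intro F G h
  ext n
  have := congrArg (fun z : LaurentSeries R ↦ z.coeff n) h
  simpa using this

theorem LExp.T {N : ℕ} [NeZero N] {f : ℍ → ℂ} {G : LaurentSeries ℂ} (hf : LExp N f G) :
    LExp N (fun τ ↦ f ((ModularGroup.T : SL(2, ℤ))⁻¹ • τ)) (twist (zetaU 1 N)⁻¹ G) := by
  intro τ
  have hN : (N : ℂ) ≠ 0 := by exact_mod_cast NeZero.ne N
  have h1 := hf ((ModularGroup.T : SL(2, ℤ))⁻¹ • τ)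
  have h2 : (((ModularGroup.T : SL(2, ℤ))⁻¹ • τ : ℍ) : ℂ) = τ - 1 := by
    have := UpperHalfPlane.modular_T_zpow_smul τ (-1)
    rw [zpow_neg_one] at this
    rw [this, UpperHalfPlane.coe_vadd]; push_cast; ring
  have hq : 𝕢 N (((ModularGroup.T : SL(2, ℤ))⁻¹ • τ : ℍ) : ℂ) =
      ((zetaU 1 N)⁻¹ : ℂˣ) * 𝕢 N τ := by
    rw [h2, zetaU, Units.val_inv_eq_inv_val, Units.val_mk0, Periodic.qParam, Periodic.qParam,
      ← Complex.exp_neg, ← Complex.exp_add]
    congr 1
    simp only [ofReal_natCast, Nat.cast_one]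
    field_simp
    ring
  convert! h1 using 2 with n
  rw [hq, mul_zpow, twist_coeff, ← Units.val_zpow_eq_zpow_val]
  ring

/-- a primitive `N`-th root of unity in `K`, corresponding to `exp (2 π i / N)`. -/
def zetaK (N : ℕ) [NeZero N] : KKˣ := (exists_zetaK 1 N).choose

theorem map_zetaK (N : ℕ) [NeZero N] : Units.map (iota : KK →* ℂ) (zetaK N) = zetaU 1 N :=
  (exists_zetaK 1 N).choose_spec

theorem isPrimitiveRoot_zetaK (N : ℕ) [NeZero N] : IsPrimitiveRoot ((zetaK N : KKˣ) : KK) N := by
  have h1 : IsPrimitiveRoot (iota ((zetaK N : KKˣ) : KK)) N := by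
    have h2 := congrArg (fun u : ℂˣ ↦ (u : ℂ)) (map_zetaK N)
    simp only [Units.coe_map, MonoidHom.coe_coe] at h2
    rw [h2, zetaU, Units.val_mk0]
    have := Complex.isPrimitiveRoot_exp N (NeZero.ne N)
    simpa using this
  exact IsPrimitiveRoot.of_map_of_injective h1 iota_injective

theorem embInfA_T {N : ℕ} [NeZero N] (x : XX N) (f : AA N) :
    embInfA (ModularGroup.T • x) f = twist (zetaK N)⁻¹ (embInfA x f) := by
  apply lexp_K_unique (lexp_embInfA _ f)
  rw [twist_coeffMap, embA_smul, map_inv]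
  have h1 : Units.map (iota : KK →* ℂ) (zetaK N) = zetaU 1 N := map_zetaK N
  have h2 := (lexp_embInfA x f).T
  rw [← h1] at h2
  exact h2

theorem embInf_T {N : ℕ} [NeZero N] (x : XX N) (f : FF N) :
    embInf (ModularGroup.T • x) f = twist (zetaK N)⁻¹ (embInf x f) := by
  obtain ⟨a, b, rfl⟩ := exists_div N f
  rw [map_div₀, map_div₀, map_div₀, embInf_coe, embInf_coe, embInf_coe, embInf_coe, embInfA_T,
    embInfA_T]

theorem embInf_T_pow {N : ℕ} [NeZero N] (x : XX N) (f : FF N) (r : ℕ) :
    embInf (ModularGroup.T ^ r • x) f = twist ((zetaK N)⁻¹ ^ r) (embInf x f) := by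
  induction r with
  | zero => simp [twist_one]
  | succ r ih =>
    rw [pow_succ', mul_smul, embInf_T, ih]
    ext n
    simp only [twist_coeff]
    rw [← mul_assoc, ← Units.val_mul, ← mul_zpow, ← pow_succ']

theorem dvd_order_of_T_pow_smul {N : ℕ} [NeZero N] {x : XX N} {r : ℕ}
    (h : ModularGroup.T ^ r • x = x) {f : FF N} (hf : f ≠ 0) :
    (N : ℤ) ∣ r * (embInf x f).order := by
  have h1 := embInf_T_pow x f r
  rw [h] at h1
  have h0 : embInf x f ≠ 0 := (map_ne_zero _).mpr hf
  have h2 := congrArg (fun z : LaurentSeries KK ↦ z.coeff (embInf x f).order) h1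
  simp only [twist_coeff] at h2
  have h3 : (embInf x f).coeff (embInf x f).order ≠ 0 := by
    rw [Ne, HahnSeries.coeff_order_eq_zero]; exact h0
  have h4 : ((((zetaK N)⁻¹ ^ r) ^ (embInf x f).order : KKˣ) : KK) = 1 := by
    apply mul_right_cancel₀ h3
    rw [one_mul]; exact h2.symm
  have h5 : (zetaK N) ^ ((r : ℤ) * (embInf x f).order) = 1 := by
    have h6 : ((zetaK N)⁻¹ ^ r) ^ (embInf x f).order = 1 := Units.ext h4
    rw [← zpow_natCast, ← zpow_mul, inv_zpow, inv_eq_one] at h6
    exact h6
  have h7 : IsPrimitiveRoot (zetaK N) N := IsPrimitiveRoot.coe_units_iff.mp (isPrimitiveRoot_zetaK N)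
  exact (h7.zpow_eq_one_iff_dvd _).mp h5

theorem order_twist {R : Type*} [CommRing R] (c : Rˣ) (G : LaurentSeries R) :
    (twist c G).order = G.order := by
  by_cases hG : G = 0
  · simp [hG]
  · apply le_antisymm
    · apply HahnSeries.order_le_of_coeff_ne_zero
      rw [twist_coeff, Ne, Units.mul_right_eq_zero]
      exact HahnSeries.coeff_order_eq_zero.not.mpr hG
    · have hG' : twist c G ≠ 0 := by
        intro h0
        apply hG
        ext n
        have := congrArg (fun z : LaurentSeries R ↦ z.coeff n) h0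
        simpa using this
      apply HahnSeries.order_le_of_coeff_ne_zero
      intro h0
      exact HahnSeries.coeff_order_eq_zero.not.mpr hG' (by rw [twist_coeff, h0, mul_zero])

theorem order_embInf_T {N : ℕ} [NeZero N] (x : XX N) (f : FF N) :
    (embInf (ModularGroup.T • x) f).order = (embInf x f).order := by
  rw [embInf_T, order_twist]

theorem embInf_jF {N : ℕ} [NeZero N] (x : XX N) :
    embInf x (jF N) = qExpand KK N (jqModC KK) := by
  rw [jF, embInf_coe]
  apply lexp_K_unique (lexp_embInfA x _)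
  rw [embA_jA]
  have h1 := lexp_jAff 1 0 1 N N (by ring)
  rw [zetaU_zero, twist_one] at h1
  rw [coeffMap_iota_jqd]
  have : ((jAff 1 0 1 : Hol) : ℍ → ℂ) = jHol := by
    funext τ
    rw [jAff_apply, jHol_apply, aff_one]
  rw [this] at h1
  exact h1

theorem order_jqModC (R : Type*) [CommRing R] [Nontrivial R] : (jqModC R).order = -1 := by
  apply le_antisymm
  · exact HahnSeries.order_le_of_coeff_ne_zero (by rw [coeff_jqModC_neg_one]; exact one_ne_zero)
  · have h0 : jqModC R ≠ 0 := fun h ↦ by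
      have := coeff_jqModC_neg_one R
      rw [h] at this; simp at this
    by_contra hlt
    rw [not_le] at hlt
    have h1 := HahnSeries.coeff_order_eq_zero.not.mpr h0
    have h2 := coeff_jqModC_pow_of_lt R (b := 1) (m := (jqModC R).order) (by push_cast; exact hlt)
    rw [pow_one] at h2
    exact h1 h2

theorem order_qExpand {R : Type*} [CommRing R] (e : ℕ) [NeZero e] (G : LaurentSeries R) :
    (qExpand R e G).order = e * G.order := by
  by_cases hG : G = 0
  · simp [hG]
  have he : (0 : ℤ) < e := by exact_mod_cast Nat.pos_of_ne_zero (NeZero.ne e)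
  have hG' : qExpand R e G ≠ 0 := fun h ↦ hG (qExpand_injective e (by rw [h, map_zero]))
  apply le_antisymm
  · apply HahnSeries.order_le_of_coeff_ne_zero
    rw [qExpand_coeff_mul]
    exact HahnSeries.coeff_order_eq_zero.not.mpr hG
  · have h1 := HahnSeries.coeff_order_eq_zero.not.mpr hG'
    have h2 : (e : ℤ) ∣ (qExpand R e G).order := by
      by_contra h3
      exact h1 (qExpand_coeff_of_not_dvd e G h3)
    obtain ⟨m, hm⟩ := h2
    rw [hm] at h1 ⊢
    rw [qExpand_coeff_mul] at h1
    exact mul_le_mul_of_nonneg_left (HahnSeries.order_le_of_coeff_ne_zero h1) he.le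

theorem order_embInf_jF {N : ℕ} [NeZero N] (x : XX N) : (embInf x (jF N)).order = -N := by
  rw [embInf_jF, order_qExpand, order_jqModC]; ring

/-! ### distinctness of the embeddings -/

theorem mem_Gamma0_of_smul_jAff {N : ℕ} [NeZero N] {g : SL(2, ℤ)}
    (h : g • jAff N 0 1 = jAff N 0 1) : g ∈ CongruenceSubgroup.Gamma0 N := by
  obtain ⟨a, b, d', ha, hd', g', h1, h2, h3⟩ := exists_hermite N g⁻¹
  have h4 : jAff N 0 1 = jAff a b d' := by
    rw [← h]
    ext τ
    rw [Hol.smul_apply, jAff_apply, jAff_apply, h3, jFun_smul]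
  have hd'N : d' ∣ N := Dvd.intro_left a h1
  have hN : N / d' ≠ 0 := (Nat.div_pos (Nat.le_of_dvd (Nat.pos_of_ne_zero (NeZero.ne N)) hd'N)
      (Nat.pos_of_ne_zero (NeZero.ne d'))).ne'
  have : NeZero (a * (N / d')) := ⟨Nat.mul_ne_zero (NeZero.ne a) hN⟩
  have : NeZero (N * N) := ⟨Nat.mul_ne_zero (NeZero.ne N) (NeZero.ne N)⟩
  have h5 := lexp_jAff a b d' (a * (N / d')) N (by rw [mul_assoc, Nat.div_mul_cancel hd'N])
  have h6 := lexp_jAff N 0 1 (N * N) N (by ring)
  rw [← h4] at h5
  have h7 := h5.unique (natCast_pos_real N) h6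
  have h8 := congrArg HahnSeries.order h7
  rw [order_qExpand, order_qExpand, order_twist, order_twist, order_jqModC] at h8
  have h9 : a * (N / d') = N * N := by
    have : ((a * (N / d') : ℕ) : ℤ) = ((N * N : ℕ) : ℤ) := by linarith
    exact_mod_cast this
  have h10 : d' = 1 := by
    have hNpos := Nat.pos_of_ne_zero (NeZero.ne N)
    have hapos := Nat.pos_of_ne_zero (NeZero.ne a)
    have e1 : a * N = N * N * d' := by rw [← h9, mul_assoc, Nat.div_mul_cancel hd'N]
    have e2 : a = N * d' := by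
      apply Nat.eq_of_mul_eq_mul_right hNpos
      rw [e1]; ring
    have e3 : N * (d' * d') = N * 1 := by rw [← mul_assoc, ← e2, h1, mul_one]
    have e4 := Nat.eq_of_mul_eq_mul_left hNpos e3
    exact Nat.eq_one_of_mul_eq_one_left e4
  subst h10
  have h11 : a = N := by simpa using h1
  subst h11
  have := mem_Gamma0_of_aff_eq a b g⁻¹ g' h3
  exact inv_mem_iff.mp this

theorem embA_injective_coset {N : ℕ} [NeZero N] : Function.Injective (embA (N := N)) := by
  intro x y hxy
  induction x using QuotientGroup.induction_on with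
  | H g =>
    induction y using QuotientGroup.induction_on with
    | H g' =>
      have h1 : embA (QuotientGroup.mk g : XX N) (jdA N N dvd_rfl) =
          embA (QuotientGroup.mk g' : XX N) (jdA N N dvd_rfl) := by rw [hxy]
      rw [embA_mk, embA_mk, ev_jdA] at h1
      rw [QuotientGroup.eq]
      apply mem_Gamma0_of_smul_jAff
      rw [mul_smul, ← h1, inv_smul_smul]

theorem emb_injective {N : ℕ} [NeZero N] : Function.Injective (emb (N := N)) := by
  intro x y hxy
  apply embA_injective_coset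
  ext1 f
  apply IsFractionRing.injective Hol MerH
  rw [← emb_coe, ← emb_coe, hxy]

theorem embInf_injective {N : ℕ} [NeZero N] : Function.Injective (embInf (N := N)) := by
  intro x y hxy
  apply embA_injective_coset
  ext1 f
  have h1 := lexp_embInfA x f
  have h2 := lexp_embInfA y f
  rw [← embInf_coe] at h1 h2
  rw [hxy] at h1
  exact lexp_hol_unique h1 h2

end Fermat.Agent.X0Emb
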