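import Mathlib
import Fermat.Agent.X0Emb.Emb
import Fermat.Agent.X0Emb.Degree

set_option autoImplicit false

open UpperHalfPlane Complex Function ModularCurve
open scoped Manifold MatrixGroups

noncomputable section

namespace Fermat.Agent.X0Emb

/-- The embedding data for the function field of `X₀(N)` over `ℚ̄`. -/
def embData (N : ℕ) [NeZero N] :
    X0Deg.EmbData (modularFunctionFieldBar N) (SL(2, ℤ) ⧸ CongruenceSubgroup.Gamma0 N) N where
  ι := iota
  A := AA N
  jA := jA N
  jA_coe := by
    have h1 : (((jA N : AA N) : FF N) : LaurentSeries KK) = jqModC KK := coe_jF N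
    rw [h1]
    exact map_jqModC iota
  frac := fun f ↦ by
    obtain ⟨a, b, hab⟩ := exists_div N f
    by_cases hb : b = 0
    · refine ⟨0, 1, one_ne_zero, ?_⟩
      rw [hab, hb]
      simp
    · refine ⟨a, b, hb, ?_⟩
      have hb' : (b : FF N) ≠ 0 := fun h ↦ hb (Subtype.ext h)
      rw [hab, div_mul_cancel₀ _ hb']
  embA := embA
  embA_const := embA_algebraMap
  embA_j := embA_jA
  embA_smul := embA_smul
  embA_lexp := fun x a ↦ ⟨_, lexp_embInfA x a⟩
  embA_inj := embA_injective
  x0 := QuotientGroup.mk 1
  embA_x0 := fun a ↦ by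
    rw [embA_mk, one_smul]
    exact lexp_ev a
  inj := embA_injective_coset

end Fermat.Agent.X0Emb
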