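import Mathlib

/-! Abstract lemmas on extensions of embeddings to fraction fields (helper80). -/

set_option autoImplicit false

noncomputable section

open scoped IntermediateField

namespace Fermat.Agent.X0Deg

variable {K F L : Type*} [Field K] [Field F] [Algebra K F] [Field L]

theorem isFractionRing_of_frac (A : Subalgebra K F)
    (hfrac : ∀ f : F, ∃ a b : A, b ≠ 0 ∧ f * (b : F) = a) : IsFractionRing A F where
  map_units y := by
    refine IsUnit.mk0 _ fun h => ?_
    exact nonZeroDivisors.ne_zero y.2 (Subtype.ext h)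
  surj z := by
    obtain ⟨a, b, hb, h⟩ := hfrac z
    exact ⟨(a, ⟨b, mem_nonZeroDivisors_of_ne_zero hb⟩), h⟩
  exists_of_eq {x y} h := ⟨1, by rw [Subtype.ext h]⟩

theorem exists_lift (A : Subalgebra K F) (hfrac : ∀ f : F, ∃ a b : A, b ≠ 0 ∧ f * (b : F) = a)
    (φ : A →+* L) (hφ : Function.Injective φ) : ∃ Φ : F →+* L, ∀ a : A, Φ a = φ a := by
  have := isFractionRing_of_frac A hfrac
  exact ⟨IsFractionRing.lift hφ, fun a => IsFractionRing.lift_algebraMap hφ a⟩

theorem lift_ext (A : Subalgebra K F) (hfrac : ∀ f : F, ∃ a b : A, b ≠ 0 ∧ f * (b : F) = a)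
    {Φ Ψ : F →+* L} (h : ∀ a : A, Φ a = Ψ a) : Φ = Ψ := by
  ext f
  obtain ⟨a, b, hb, hf⟩ := hfrac f
  have hb' : (b : F) ≠ 0 := fun h => hb (Subtype.ext h)
  have h1 := congrArg Φ hf
  have h2 := congrArg Ψ hf
  rw [map_mul] at h1 h2
  rw [h b, h a, ← h2] at h1
  exact mul_right_cancel₀ ((map_ne_zero Ψ).mpr hb') h1

theorem card_le_finrank {E X : Type*} [Field E] [Algebra E F] [FiniteDimensional E F]
    (Φ : X → F →+* L) (hinj : Function.Injective Φ)
    (hE : ∀ x x' (e : E), Φ x (algebraMap E F e) = Φ x' (algebraMap E F e)) :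
    Nat.card X ≤ Module.finrank E F := by
  rcases isEmpty_or_nonempty X with h | ⟨⟨x0⟩⟩
  · simp
  let _ : Algebra E L := ((Φ x0).comp (algebraMap E F)).toAlgebra
  let f : X → (F →ₐ[E] L) := fun x => { Φ x with commutes' := fun e => hE x x0 e }
  have hf : Function.Injective f := fun x y hxy => hinj (by
    ext a
    exact DFunLike.congr_fun hxy a)
  exact (Nat.card_le_card_of_injective f hf).trans (card_algHom_le_finrank E F L)

theorem eq_on_adjoin {Φ Ψ : F →+* L} {j : F}
    (hK : ∀ c : K, Φ (algebraMap K F c) = Ψ (algebraMap K F c)) (hj : Φ j = Ψ j)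
    (e : K⟮j⟯) : Φ (algebraMap K⟮j⟯ F e) = Ψ (algebraMap K⟮j⟯ F e) := by
  let S : IntermediateField K F :=
    { Φ.eqLocusField Ψ with
      algebraMap_mem' := hK }
  have h1 : K⟮j⟯ ≤ S := by
    rw [IntermediateField.adjoin_simple_le_iff]
    exact hj
  exact h1 e.2

end Fermat.Agent.X0Deg
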