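import Mathlib
import Fermat.Agent.X0Emb.Degree
import Fermat.Agent.X0Emb.EmbedAlg

/-! Embeddings of the function field into meromorphic functions and Laurent series (helper80). -/

set_option autoImplicit false

open UpperHalfPlane Complex Function Filter Topology ModularForm
open scoped Manifold MatrixGroups IntermediateField

noncomputable section

namespace Fermat.Agent.X0Deg

open Fermat.Agent.JLevelOne Fermat.Agent.X0Emb

local notation "𝕢" => Periodic.qParam

namespace EmbData

variable {K : Type*} [Field K] {F : IntermediateField K (LaurentSeries K)}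
  {X : Type*} [MulAction SL(2, ℤ) X] {N : ℕ} (D : EmbData F X N)

theorem exists_embM (x : X) : ∃ Φ : F →+* MerH, ∀ a : D.A, Φ a = algebraMap Hol MerH (D.embA x a) :=
  exists_lift D.A D.frac ((algebraMap Hol MerH).comp (D.embA x))
    ((IsFractionRing.injective Hol MerH).comp (D.embA_inj x))

/-- the embedding into meromorphic functions -/
def embM (x : X) : F →+* MerH := (D.exists_embM x).choose

theorem embM_coe (x : X) (a : D.A) : D.embM x a = algebraMap Hol MerH (D.embA x a) :=
  (D.exists_embM x).choose_spec a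

theorem embM_smul (g : SL(2, ℤ)) (x : X) (f : F) : D.embM (g • x) f = g • D.embM x f := by
  have h : D.embM (g • x) = (MulSemiringAction.toRingHom SL(2, ℤ) MerH g).comp (D.embM x) := by
    refine lift_ext D.A D.frac fun a => ?_
    rw [embM_coe, RingHom.comp_apply, embM_coe, D.embA_smul]
    exact (smul_algebraMap_merH g _).symm
  exact congrArg (fun Φ : F →+* MerH => Φ f) h

theorem embM_injective : Function.Injective D.embM := by
  intro x y hxy
  refine D.inj (RingHom.ext fun a => ?_)
  apply IsFractionRing.injective Hol MerH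
  rw [← embM_coe, ← embM_coe, hxy]

theorem embM_const (x : X) (c : K) :
    D.embM x (algebraMap K F c) = algebraMap Hol MerH (constHol (D.ι c)) := by
  rw [← D.embA_const x c, ← embM_coe]
  rfl

theorem embM_jF (x : X) : D.embM x D.jF = algebraMap Hol MerH jH := by
  rw [jF, embM_coe, D.embA_j]

theorem card_le [FiniteDimensional K⟮D.jF⟯ F] : Nat.card X ≤ Module.finrank K⟮D.jF⟯ F :=
  card_le_finrank D.embM D.embM_injective fun x x' e =>
    eq_on_adjoin (fun c => by rw [embM_const, embM_const]) (by rw [embM_jF, embM_jF]) e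

theorem finrank_eq [Fintype X] [NeZero N] [CharZero K] :
    Module.finrank K⟮D.jF⟯ F = Nat.card X := by
  have := D.upper.1
  refine le_antisymm ?_ D.card_le
  rw [Nat.card_eq_fintype_card]
  exact D.upper.2

/-! ### Laurent expansions at infinity -/

theorem embInfA_unique [NeZero N] {f : ℍ → ℂ} {G G' : LaurentSeries ℂ} (h : LExp N f G)
    (h' : LExp N f G') : G = G' :=
  h.unique (by exact_mod_cast Nat.pos_of_ne_zero (NeZero.ne N)) h'

/-- the Laurent expansion of `embA x a` -/
def infA [NeZero N] (x : X) : D.A →+* LaurentSeries ℂ where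
  toFun a := (D.embA_lexp x a).choose
  map_one' := embInfA_unique (D.embA_lexp x 1).choose_spec (by rw [map_one]; exact LExp.one _)
  map_zero' := embInfA_unique (D.embA_lexp x 0).choose_spec (by rw [map_zero]; exact LExp.zero _)
  map_add' a b := embInfA_unique (D.embA_lexp x _).choose_spec (by
    rw [map_add]; exact (D.embA_lexp x a).choose_spec.add (D.embA_lexp x b).choose_spec)
  map_mul' a b := embInfA_unique (D.embA_lexp x _).choose_spec (by
    rw [map_mul]; exact (D.embA_lexp x a).choose_spec.mul (D.embA_lexp x b).choose_spec)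

theorem infA_spec [NeZero N] (x : X) (a : D.A) : LExp N (D.embA x a) (D.infA x a) :=
  (D.embA_lexp x a).choose_spec

theorem infA_injective [NeZero N] (x : X) : Function.Injective (D.infA x) := by
  rw [injective_iff_map_eq_zero]
  intro a ha
  have h1 := D.infA_spec x a
  rw [ha] at h1
  have h2 := h1.funext (LExp.zero _)
  apply D.embA_inj x
  rw [map_zero]
  exact Subtype.ext h2

theorem exists_embInf [NeZero N] (x : X) : ∃ Φ : F →+* LaurentSeries ℂ, ∀ a : D.A, Φ a = D.infA x a :=
  exists_lift D.A D.frac (D.infA x) (D.infA_injective x)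

/-- the embedding into Laurent series -/
def embInf [NeZero N] (x : X) : F →+* LaurentSeries ℂ := (D.exists_embInf x).choose

theorem embInf_coe [NeZero N] (x : X) (a : D.A) : D.embInf x a = D.infA x a :=
  (D.exists_embInf x).choose_spec a

theorem embInf_lexp [NeZero N] (x : X) (a : D.A) : LExp N (D.embA x a) (D.embInf x a) := by
  rw [embInf_coe]
  exact D.infA_spec x a

theorem embInf_injective [NeZero N] : Function.Injective D.embInf := by
  intro x y hxy
  refine D.inj (RingHom.ext fun a => Subtype.ext ?_)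
  have h1 := D.embInf_lexp x a
  rw [hxy] at h1
  exact h1.funext (D.embInf_lexp y a)

theorem embInf_const [NeZero N] (x : X) (c : K) :
    D.embInf x (algebraMap K F c) = HahnSeries.C (D.ι c) := by
  refine embInfA_unique (D.embInf_lexp x (algebraMap K D.A c)) ?_
  rw [D.embA_const]
  exact LExp.const _ _

theorem LExp.T_smul {f : Hol} {G : LaurentSeries ℂ} [NeZero N] (hf : LExp N f G) :
    LExp N (ModularGroup.T • f : Hol) (twist (zetaU 1 N)⁻¹ G) := by
  intro τ
  have h1 := hf (ModularGroup.T⁻¹ • τ)
  have hN : (N : ℂ) ≠ 0 := by exact_mod_cast NeZero.ne N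
  have hq : 𝕢 N ((ModularGroup.T⁻¹ • τ : ℍ) : ℂ) = ((zetaU 1 N)⁻¹ : ℂˣ) * 𝕢 N (τ : ℂ) := by
    have h2 : ((ModularGroup.T⁻¹ • τ : ℍ) : ℂ) = (τ : ℂ) - 1 := by
      have h3 := UpperHalfPlane.modular_T_zpow_smul τ (-1)
      rw [zpow_neg_one] at h3
      rw [h3]
      simp
      ring
    rw [h2, Units.val_inv_eq_inv_val, zetaU, Units.val_mk0, ← Complex.exp_neg, Periodic.qParam,
      Periodic.qParam, ← Complex.exp_add]
    congr 1
    simp only [ofReal_natCast, Nat.cast_one]
    field_simp
    ring
  rw [Hol.smul_apply]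
  convert! h1 using 2 with n
  rw [hq, mul_zpow, twist_coeff, Units.val_zpow_eq_zpow_val]
  ring

theorem embInf_T [NeZero N] (x : X) (f : F) :
    D.embInf (ModularGroup.T • x) f = twist (zetaU 1 N)⁻¹ (D.embInf x f) := by
  have h : D.embInf (ModularGroup.T • x) = (twist (zetaU 1 N)⁻¹).comp (D.embInf x) := by
    refine lift_ext D.A D.frac fun a => ?_
    refine embInfA_unique (D.embInf_lexp _ a) ?_
    rw [D.embA_smul]
    exact LExp.T_smul (D.embInf_lexp x a)
  exact congrArg (fun Φ : F →+* LaurentSeries ℂ => Φ f) h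

theorem lexp_jFun_N [NeZero N] : LExp N jFun (ModularCurve.qExpand ℂ N (ModularCurve.jqModC ℂ)) := by
  intro τ
  have h1 := lexp_jFun τ
  have hinj : Function.Injective (fun n : ℤ ↦ (N : ℤ) * n) :=
    mul_right_injective₀ (by exact_mod_cast NeZero.ne N)
  have hN : (N : ℂ) ≠ 0 := by exact_mod_cast NeZero.ne N
  have hq : 𝕢 1 (τ : ℂ) = 𝕢 N (τ : ℂ) ^ (N : ℤ) := by
    rw [zpow_natCast, Periodic.qParam, Periodic.qParam, ← Complex.exp_nat_mul]
    congr 1
    simp only [ofReal_one, div_one, ofReal_natCast]
    field_simp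
  rw [← hinj.hasSum_iff]
  · convert! h1 using 2 with n
    simp only [Function.comp, ModularCurve.qExpand_coeff_mul]
    rw [hq, ← zpow_mul]
  · intro n hn
    rw [ModularCurve.qExpand_coeff_of_not_dvd, zero_mul]
    rintro ⟨m, rfl⟩
    exact hn ⟨m, rfl⟩

theorem embInf_jF [NeZero N] (x : X) :
    D.embInf x D.jF = ModularCurve.qExpand ℂ N (ModularCurve.jqModC ℂ) := by
  refine embInfA_unique (D.embInf_lexp x D.jA) ?_
  rw [D.embA_j]
  exact lexp_jFun_N

end EmbData

end Fermat.Agent.X0Deg
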