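import Mathlib
import Fermat.Agent.X0Emb.Hol

set_option autoImplicit false

open UpperHalfPlane Complex Function Filter Topology ModularForm
open scoped Manifold MatrixGroups

noncomputable section

namespace Fermat.Agent.X0Emb

open Fermat.Agent.JLevelOne

theorem neg_one_smul_hol (f : Hol) : (-1 : SL(2, ℤ)) • f = f := by
  ext τ
  rw [Hol.smul_apply, inv_neg, inv_one, ModularGroup.SL_neg_smul, one_smul]

theorem merH_exists_div (f : MerH) : ∃ a b : Hol, b ≠ 0 ∧ f = algebraMap Hol MerH a / algebraMap Hol MerH b := by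
  obtain ⟨a, b, hb, rfl⟩ := IsFractionRing.div_surjective Hol f
  exact ⟨a, b, nonZeroDivisors.ne_zero hb, rfl⟩

theorem algebraMap_hol_ne_zero {f : Hol} (hf : f ≠ 0) : algebraMap Hol MerH f ≠ 0 :=
  (map_ne_zero_iff _ (IsFractionRing.injective Hol MerH)).mpr hf

theorem smul_hol_ne_zero {f : Hol} (hf : f ≠ 0) (g : SL(2, ℤ)) : g • f ≠ 0 := by
  intro h
  apply hf
  have := congrArg (fun u ↦ g⁻¹ • u) h
  simpa using this

theorem neg_one_smul_mer (f : MerH) : (-1 : SL(2, ℤ)) • f = f := by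
  obtain ⟨a, b, -, rfl⟩ := merH_exists_div f
  rw [smul_div₀', smul_algebraMap_merH, smul_algebraMap_merH, neg_one_smul_hol, neg_one_smul_hol]

theorem ordAt_div (τ0 : ℍ) {a b : Hol} (ha : a ≠ 0) (hb : b ≠ 0) :
    ordAt τ0 (algebraMap Hol MerH a / algebraMap Hol MerH b) =
      ((ordH τ0 a).toNat : ℤ) - ((ordH τ0 b).toNat : ℤ) := by
  have h1 := ordAt_mul τ0 (algebraMap Hol MerH a / algebraMap Hol MerH b) (algebraMap Hol MerH b)
    (div_ne_zero (algebraMap_hol_ne_zero ha) (algebraMap_hol_ne_zero hb))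
    (algebraMap_hol_ne_zero hb)
  rw [div_mul_cancel₀ _ (algebraMap_hol_ne_zero hb), ordAt_algebraMap τ0 ha,
    ordAt_algebraMap τ0 hb] at h1
  linarith

theorem ordAt_smul (τ0 : ℍ) (g : SL(2, ℤ)) (f : MerH) (hf : f ≠ 0) :
    ordAt τ0 (g • f) = ordAt (g⁻¹ • τ0) f := by
  obtain ⟨a, b, hb, rfl⟩ := merH_exists_div f
  have ha : a ≠ 0 := by
    rintro rfl
    simp at hf
  rw [smul_div₀', smul_algebraMap_merH, smul_algebraMap_merH,
    ordAt_div τ0 (smul_hol_ne_zero ha g) (smul_hol_ne_zero hb g), ordAt_div _ ha hb,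
    ordH_smul, ordH_smul]

/-- An element of `MerH` invariant under an element acting through a finite cyclic group is a
quotient of two invariant holomorphic functions. -/
theorem exists_invariant_div {h : SL(2, ℤ)} {m : ℕ} (hm : h ^ m = -1) (hm0 : 0 < m) {f : MerH}
    (hf : h • f = f) :
    ∃ A B : Hol, B ≠ 0 ∧ h • A = A ∧ h • B = B ∧
      f = algebraMap Hol MerH A / algebraMap Hol MerH B := by
  obtain ⟨a, b, hb, hab⟩ := merH_exists_div f
  -- the denominator
  set B : Hol := ∏ i ∈ Finset.range m, h ^ i • b with hB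
  have hB0 : B ≠ 0 := Finset.prod_ne_zero_iff.mpr fun i _ ↦ smul_hol_ne_zero hb _
  have hBinv : h • B = B := by
    rw [hB, Finset.smul_prod']
    have h1 : ∀ i, h • h ^ i • b = h ^ (i + 1) • b := fun i ↦ by rw [pow_succ', mul_smul]
    simp only [h1]
    have h2 := Finset.prod_range_succ' (fun i ↦ h ^ i • b) m
    have h3 := Finset.prod_range_succ (fun i ↦ h ^ i • b) m
    rw [h2] at h3
    rw [hm, neg_one_smul_hol, pow_zero, one_smul] at h3
    exact mul_right_cancel₀ hb h3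
  set C : Hol := ∏ i ∈ Finset.range (m - 1), h ^ (i + 1) • b with hC
  have hBC : B = b * C := by
    rw [hB, hC]
    obtain ⟨k, rfl⟩ : ∃ k, m = k + 1 := ⟨m - 1, by omega⟩
    rw [Finset.prod_range_succ' (fun i ↦ h ^ i • b) k, pow_zero, one_smul, mul_comm]
    simp
  have hA : f = algebraMap Hol MerH (a * C) / algebraMap Hol MerH B := by
    have hC0 : C ≠ 0 := by
      rintro h0; rw [h0, mul_zero] at hBC; exact hB0 hBC
    rw [hab, hBC, map_mul, map_mul]
    have hb' := algebraMap_hol_ne_zero hb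
    have hC' := algebraMap_hol_ne_zero hC0
    field_simp
  refine ⟨a * C, B, hB0, ?_, hBinv, hA⟩
  apply IsFractionRing.injective Hol MerH
  have hB' := algebraMap_hol_ne_zero hB0
  have h4 : algebraMap Hol MerH (a * C) = f * algebraMap Hol MerH B := by
    rw [hA]; field_simp
  rw [← smul_algebraMap_merH, h4, smul_mul', hf, smul_algebraMap_merH, hBinv]

theorem S_sq : (ModularGroup.S : SL(2, ℤ)) ^ 2 = -1 := by decide

theorem ST_cube : (ModularGroup.S * ModularGroup.T : SL(2, ℤ)) ^ 3 = -1 := by decide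

theorem three_dvd_ordAt_rho {f : MerH} (hf0 : f ≠ 0)
    (hf : (ModularGroup.S * ModularGroup.T : SL(2, ℤ)) • f = f) : (3 : ℤ) ∣ ordAt ρ f := by
  obtain ⟨A, B, hB, hA', hB', rfl⟩ := exists_invariant_div ST_cube (by norm_num) hf
  have hA : A ≠ 0 := by rintro rfl; simp at hf0
  rw [ordAt_div ρ hA hB]
  have key : ∀ C : Hol, C ≠ 0 → (ModularGroup.S * ModularGroup.T : SL(2, ℤ)) • C = C →
      (3 : ℤ) ∣ ((ordH ρ C).toNat : ℤ) := by
    intro C hC hinv
    have h1 : ∀ z : ℍ, C ((ModularGroup.S * ModularGroup.T : SL(2, ℤ)) • z) = C z := by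
      intro z
      have := congrArg (fun u : Hol ↦ u ((ModularGroup.S * ModularGroup.T : SL(2, ℤ)) • z)) hinv
      simp only [Hol.smul_apply, inv_smul_smul] at this
      exact this.symm
    have h2 := three_dvd_analyticOrderAt_ρ (Hol.mdiff C) h1 (n := (ordH ρ C).toNat)
      (ENat.natCast_toNat (ordH_ne_top ρ hC)).symm
    exact_mod_cast h2
  exact dvd_sub (key A hA hA') (key B hB hB')

theorem two_dvd_ordAt_I {f : MerH} (hf0 : f ≠ 0)
    (hf : (ModularGroup.S : SL(2, ℤ)) • f = f) : (2 : ℤ) ∣ ordAt UpperHalfPlane.I f := by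
  obtain ⟨A, B, hB, hA', hB', rfl⟩ := exists_invariant_div S_sq (by norm_num) hf
  have hA : A ≠ 0 := by rintro rfl; simp at hf0
  rw [ordAt_div _ hA hB]
  have key : ∀ C : Hol, C ≠ 0 → (ModularGroup.S : SL(2, ℤ)) • C = C →
      (2 : ℤ) ∣ ((ordH UpperHalfPlane.I C).toNat : ℤ) := by
    intro C hC hinv
    have h1 : ∀ z : ℍ, C ((ModularGroup.S : SL(2, ℤ)) • z) = C z := by
      intro z
      have := congrArg (fun u : Hol ↦ u ((ModularGroup.S : SL(2, ℤ)) • z)) hinv
      simp only [Hol.smul_apply, inv_smul_smul] at this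
      exact this.symm
    have h2 := two_dvd_analyticOrderAt_I (Hol.mdiff C) h1 (n := (ordH UpperHalfPlane.I C).toNat)
      (ENat.natCast_toNat (ordH_ne_top _ hC)).symm
    exact_mod_cast h2
  exact dvd_sub (key A hA hA') (key B hB hB')

theorem three_dvd_mul_ordAt_rho {f : MerH} (hf0 : f ≠ 0) {r : ℕ}
    (hf : (ModularGroup.S * ModularGroup.T : SL(2, ℤ)) ^ r • f = f) :
    (3 : ℤ) ∣ r * ordAt ρ f := by
  set h : SL(2, ℤ) := ModularGroup.S * ModularGroup.T with hh
  have h3 : ∀ f : MerH, h ^ 3 • f = f := fun f ↦ by rw [ST_cube, neg_one_smul_mer]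
  have h3k : ∀ (k : ℕ) (f : MerH), h ^ (3 * k) • f = f := by
    intro k f
    induction k with
    | zero => simp
    | succ k ih => rw [Nat.mul_succ, pow_add, mul_smul, h3, ih]
  obtain ⟨k, hk⟩ : ∃ k, r = 3 * k ∨ r = 3 * k + 1 ∨ r = 3 * k + 2 := ⟨r / 3, by omega⟩
  rcases hk with hk | hk | hk
  · refine Dvd.dvd.mul_right ?_ _
    rw [hk]; push_cast; exact dvd_mul_right _ _
  · refine Dvd.dvd.mul_left (three_dvd_ordAt_rho hf0 ?_) _
    rw [hk, pow_add, mul_smul, pow_one] at hf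
    rwa [h3k] at hf
  · refine Dvd.dvd.mul_left (three_dvd_ordAt_rho hf0 ?_) _
    rw [hk, pow_add, mul_smul, h3k] at hf
    have h5 : h • (h ^ 2 • f) = f := by rw [← mul_smul, ← pow_succ', h3]
    rw [hf] at h5
    exact h5

theorem two_dvd_mul_ordAt_I {f : MerH} (hf0 : f ≠ 0) {r : ℕ}
    (hf : (ModularGroup.S : SL(2, ℤ)) ^ r • f = f) :
    (2 : ℤ) ∣ r * ordAt UpperHalfPlane.I f := by
  set h : SL(2, ℤ) := ModularGroup.S with hh
  have h2 : ∀ f : MerH, h ^ 2 • f = f := fun f ↦ by rw [S_sq, neg_one_smul_mer]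
  have h2k : ∀ (k : ℕ) (f : MerH), h ^ (2 * k) • f = f := by
    intro k f
    induction k with
    | zero => simp
    | succ k ih => rw [Nat.mul_succ, pow_add, mul_smul, h2, ih]
  obtain ⟨k, hk⟩ : ∃ k, r = 2 * k ∨ r = 2 * k + 1 := ⟨r / 2, by omega⟩
  rcases hk with hk | hk
  · refine Dvd.dvd.mul_right ?_ _
    rw [hk]; push_cast; exact dvd_mul_right _ _
  · refine Dvd.dvd.mul_left (two_dvd_ordAt_I hf0 ?_) _
    rw [hk, pow_add, mul_smul, pow_one] at hf
    rwa [h2k] at hf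

end Fermat.Agent.X0Emb
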